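import Fermat.Agent.PSEMI.OrdinaryUnit
import Fermat.Agent.GaloisBasic.TracePairing

/-!
# An irreducible torsion representation is not Eisenstein

Some good prime `ℓ` has `a_ℓ ≢ ℓ + 1`.
-/

set_option autoImplicit false

noncomputable section

open WeierstrassCurve
open scoped WeierstrassCurve.Affine Matrix

namespace FermatAgent.BAD.AtP

local notation "GQ" => AlgebraicClosure ℚ ≃ₐ[ℚ] AlgebraicClosure ℚ

variable {k : Type} [Field k] {G : Type} [Group G]

/-- A group with the eigenvalue one everywhere does not span the matrices. -/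
theorem false_of_det_sub_one (M : G →* Matrix (Fin 2) (Fin 2) k)
    (hspan : Submodule.span k (Set.range M) = ⊤)
    (h : ∀ g, (M g).trace = 1 + (M g).det) : False := by
  have hker : ∀ g, (M g).det = 1 → M g = 1 := by
    intro g hg
    refine sub_eq_zero.mp (GaloisBasic.eq_zero_of_trace_mul_span hspan fun x => ?_)
    rw [sub_mul, one_mul, ← map_mul, Matrix.trace_sub, h, h, map_mul, Matrix.det_mul, hg, one_mul,
      sub_self]
  have hcomm : ∀ g g', Commute (M g) (M g') := by
    intro g g'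
    have h1 : M (g * g' * g⁻¹ * g'⁻¹) = 1 := hker _ (by
      have e1 : (M g).det * (M g⁻¹).det = 1 := by
        rw [← Matrix.det_mul, ← map_mul, mul_inv_cancel, map_one, Matrix.det_one]
      have e2 : (M g').det * (M g'⁻¹).det = 1 := by
        rw [← Matrix.det_mul, ← map_mul, mul_inv_cancel, map_one, Matrix.det_one]
      rw [map_mul, map_mul, map_mul, Matrix.det_mul, Matrix.det_mul, Matrix.det_mul]
      linear_combination ((M g').det * (M g'⁻¹).det) * e1 + e2)
    show M g * M g' = M g' * M g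
    rw [← map_mul, ← map_mul, show g * g' = (g * g' * g⁻¹ * g'⁻¹) * (g' * g) by group, map_mul,
      h1, one_mul]
  have hall : ∀ X Y : Matrix (Fin 2) (Fin 2) k, Commute X Y := by
    have h1 : ∀ g, ∀ Y : Matrix (Fin 2) (Fin 2) k, Commute (M g) Y := by
      intro g Y
      have hY : Y ∈ Submodule.span k (Set.range M) := hspan ▸ Submodule.mem_top
      induction hY using Submodule.span_induction with
      | mem Z hZ => obtain ⟨x, rfl⟩ := hZ; exact hcomm g x
      | zero => exact Commute.zero_right _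
      | add Z Z' _ _ hZ hZ' => exact hZ.add_right hZ'
      | smul c Z _ hZ => exact hZ.smul_right c
    intro X Y
    have hX : X ∈ Submodule.span k (Set.range M) := hspan ▸ Submodule.mem_top
    induction hX using Submodule.span_induction with
    | mem Z hZ => obtain ⟨x, rfl⟩ := hZ; exact h1 x Y
    | zero => exact Commute.zero_left _
    | add Z Z' _ _ hZ hZ' => exact hZ.add_left hZ'
    | smul c Z _ hZ => exact hZ.smul_left c
  have := congrFun (congrFun (hall !![0, 1; 0, 0] !![0, 0; 1, 0]).eq 0) 0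
  simp [Matrix.mul_apply, Fin.sum_univ_two] at this

/-- **A non Eisenstein good prime.** -/
theorem exists_nonEis {W : WeierstrassCurve ℤ} {p : ℕ} [hp : Fact p.Prime] (hΔ : W.Δ ≠ 0)
    (hp2 : p ≠ 2) (hirr : W.ModRepIsIrreducible p) {E : ℕ} (hE : E ≠ 0) :
    ∃ ℓ : ℕ, ℓ.Prime ∧ ¬ ℓ ∣ E ∧ W.IsGoodPrimeFor ℓ ∧
      (W.apOfModel ℓ : ZMod p) ≠ (ℓ : ZMod p) + 1 := by
  classical
  by_contra hcon
  push Not at hcon
  obtain ⟨b, hb⟩ := PSEMI.exists_basis_span_torRep hΔ hp2 hirr
  let M : GQ →* Matrix (Fin 2) (Fin 2) (ZMod p) :=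
    (LinearMap.toMatrixAlgEquiv b).toAlgHom.toRingHom.toMonoidHom.comp (Assembly.torRep W hΔ p).ρ
  refine false_of_det_sub_one M hb fun g => ?_
  obtain ⟨L, hL, hLfix⟩ := (Assembly.torRep W hΔ p).factorsThroughFiniteLevel
  have := hL
  set S : Finset ℕ := E.primeFactors ∪ W.Δ.natAbs.primeFactors ∪ {p}
  obtain ⟨q, A, σ, j, -, hq, hqS, hA, hσ, -, hgσ, -⟩ :=
    GaloisBasic.exists_frobenius_pow_congr L g S
  simp only [S, Finset.mem_union, Finset.mem_singleton, Nat.mem_primeFactors, not_or, not_and_or]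
    at hqS
  obtain ⟨⟨h1, h2⟩, h3⟩ := hqS
  have hqE : ¬ q ∣ E := by
    rcases h1 with h1 | h1 | h1
    exacts [absurd hq h1, h1, absurd hE h1]
  have hqg : W.IsGoodPrimeFor q := fun hd => by
    rcases h2 with h2 | h2 | h2
    exacts [h2 hq, h2 (Int.natCast_dvd.1 hd), h2 (Int.natAbs_ne_zero.2 hΔ)]
  have hMg : M g = M σ ^ j := by
    rw [← map_pow]
    conv_lhs => rw [show g = σ ^ j * ((σ ^ j)⁻¹ * g) by group]
    rw [map_mul]
    refine (congrArg (M (σ ^ j) * ·) ?_).trans (mul_one _)
    show LinearMap.toMatrixAlgEquiv b ((Assembly.torRep W hΔ p).ρ _) = 1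
    rw [hLfix _ ((IntermediateField.mem_fixingSubgroup_iff _ _).mp hgσ), map_one]
  have htr : (M σ).trace = (q : ZMod p) + 1 := by
    rw [← hcon q hq hqE hqg, ← EC.galoisTrace_frobenius_eq_apOfModel W hq hqg h3 hA hσ]
    exact (LinearMap.trace_eq_matrix_trace (ZMod p) b ((Assembly.torRep W hΔ p).ρ σ)).symm
  have hdet : (M σ).det = (q : ZMod p) := by
    rw [← EC.det_frobenius (p := p) hΔ hq h3 hA hσ]
    exact LinearMap.det_toMatrix b ((Assembly.torRep W hΔ p).ρ σ)
  have hone : (M σ - 1).det = 0 := by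
    have e := Matrix.det_fin_two (M σ - 1)
    rw [e]
    rw [Matrix.trace_fin_two] at htr
    rw [Matrix.det_fin_two] at hdet
    simp [Matrix.sub_apply]
    linear_combination hdet - htr
  have hpow : (M σ ^ j - 1).det = 0 := by
    rw [← geom_sum_mul, Matrix.det_mul, hone, mul_zero]
  rw [← hMg, Matrix.det_fin_two] at hpow
  rw [Matrix.trace_fin_two, Matrix.det_fin_two]
  simp [Matrix.sub_apply] at hpow
  linear_combination -hpow

end FermatAgent.BAD.AtP

end
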