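import Fermat.Agent.BAD.AtP.Gal.Local
import Fermat.Agent.BAD.AtP.Gal.NonEis
import Fermat.Agent.Assembly.Lift
import Fermat.Agent.Assembly.Frey

/-!
# Removing the residue characteristic from the level

A minimal eigenform of level `L p` congruent to the curve, with the torsion fixed over the
coefficient field, contradicts the triviality of eigenclasses at `∞`.
-/

set_option autoImplicit false

noncomputable section

open CongruenceSubgroup ModularFormClass WeierstrassCurve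
open scoped MatrixGroups

namespace FermatAgent.BAD.AtP

open Assembly (ZC Congr)

variable {W : WeierstrassCurve ℤ} {p : ℕ} [hp : Fact p.Prime]

/-- An eigenform of level `L p` congruent to the curve forces the level `L`. -/
theorem isResiduallyModularOfLevel_of_congr (hΔ : W.Δ ≠ 0) (hp2 : p ≠ 2)
    (hirr : W.ModRepIsIrreducible p)
    (hsemi : (p : ℤ) ∣ W.Δ → ¬ (p : ℤ) ∣ W.c₄ ∧ p ∣ padicValInt p W.Δ)
    {L : ℕ} [NeZero L] [NeZero (L * p)] (hLp : L.Coprime p)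
    (h3 : p = 3 → 2 ∣ L) {f : CuspForm (Gamma0 (L * p)) 2} {𝔪 : Ideal ZC}
    (hcg : Congr W p (L * p) f 𝔪) (hfp : qCoeff f p ^ 2 = 1) :
    W.IsResiduallyModularOfLevel p L := by
  classical
  by_contra hno
  set E : ℕ := W.Δ.natAbs
  have hE : E ≠ 0 := Int.natAbs_ne_zero.2 hΔ
  let b : ℕ → ℕ := fun ℓ => ((W.apOfModel ℓ : ℤ) : ZMod p).val
  have hb : ∀ ℓ, (b ℓ : ZMod p) = (W.apOfModel ℓ : ZMod p) := fun ℓ =>
    ZMod.natCast_zmod_val _
  have hE' : E * (L * p) ≠ 0 := mul_ne_zero hE (NeZero.ne _)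
  have hlow : NoLow p L E b := by
    rintro ⟨g, 𝔫, hg, hmax, hmem, h⟩
    refine hno ⟨g, 𝔫, Assembly.congr_of_cofinite hΔ hp.out hg hmax hmem (E * (L * p)).primeFactors
      fun ℓ hℓ hℓS _ _ _ => ?_⟩
    obtain ⟨x, hx, hm⟩ := h ℓ hℓ fun hd => hℓS (Nat.mem_primeFactors.2 ⟨hℓ, hd, hE'⟩)
    refine ⟨x, hx, ?_⟩
    have hpd : ((b ℓ : ZC) - ((W.apOfModel ℓ : ℤ) : ZC)) ∈ 𝔫 := by
      have hd : (p : ℤ) ∣ (b ℓ : ℤ) - W.apOfModel ℓ := by
        rw [← ZMod.intCast_zmod_eq_zero_iff_dvd]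
        push_cast
        rw [hb, sub_self]
      obtain ⟨c, hc⟩ := hd
      have hc' := congrArg (fun n : ℤ => (n : ZC)) hc
      push_cast at hc'
      rw [hc']
      exact Ideal.mul_mem_right _ _ hmem
    have := Ideal.add_mem _ hm hpd
    rwa [sub_add_sub_cancel] at this
  obtain ⟨ℓ, hℓ, hℓE, -, hne⟩ := exists_nonEis hΔ hp2 hirr (E := E * (L * p)) hE'
  exact false_of_congr hΔ hp2 hirr hLp h3 hcg hfp hE dvd_rfl hb hlow
    ⟨ℓ, hℓ, hℓE, by rwa [hb]⟩ (galoisRepModuleEnd_eq_one hΔ hp2 hsemi)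

end FermatAgent.BAD.AtP

end
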