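import Fermat.Agent.BAD.TwoP.GaloisFixed
import Fermat.Agent.PSEMI.OrdinarySign

/-!
# Classes of a residual system trivial at `∞`

The kernel of the residual representation fixes a vector killed by every operator of residual value
zero; if the classes of all such vectors are trivial at `∞`, the representation is reducible.
-/

set_option autoImplicit false

open IsLocalRing CongruenceSubgroup
open scoped MatrixGroups Matrix

noncomputable section

namespace FermatAgent.BAD.TwoP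

open FermatAgent.PSEMI
open FermatAgent.Period (parRank)

theorem cgr_iff_red {p : ℕ} [Fact p.Prime] {N : ℕ} {v w : Fin (parRank (Gamma0 N)) → ℤ_[p]} :
    Cgr 1 v w ↔ Fixed.red v = Fixed.red w := by
  have h : ∀ i, (p : ℤ_[p]) ^ 1 ∣ v i - w i ↔
      PadicInt.toZModPow 1 (v i) = PadicInt.toZModPow 1 (w i) := fun i => by
    rw [← sub_eq_zero (a := PadicInt.toZModPow 1 (v i)), ← map_sub, ← RingHom.mem_ker,
      PadicInt.ker_toZModPow, Ideal.mem_span_singleton]
  exact ⟨fun H => funext fun i => (h i).mp (H i), fun H i => (h i).mpr (congrFun H i)⟩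

end FermatAgent.BAD.TwoP

namespace FermatAgent.BAD.AtP

open FermatAgent.PSEMI FermatAgent.PSEMI.MatLim FermatAgent.BAD.TwoP
open FermatAgent.Period (parRank)
open FermatAgent.ES (GQ)

section

variable {p : ℕ} [hp : Fact p.Prime] {κ : Type} [Fintype κ] [DecidableEq κ] {T : Type}
  [CommRing T] [IsLocalRing T] {𝒢 : Type} [Group 𝒢]

local notation "MatP" => Matrix κ κ ℤ_[p]
local notation "𝔽" => ZMod (p ^ 1)

omit hp in
/-- Commuting nilpotent operators have a common kernel. -/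
theorem exists_common_kernel {ι : Type} (s : Finset ι) (X : ι → Matrix κ κ 𝔽)
    (S : Set (κ → 𝔽)) (hstab : ∀ i, ∀ v ∈ S, X i *ᵥ v ∈ S)
    (hnil : ∀ i, ∀ v ∈ S, ∃ j, X i ^ j *ᵥ v = 0) (hcomm : ∀ i j, Commute (X i) (X j))
    (hS : ∃ v ∈ S, v ≠ 0) : ∃ v ∈ S, v ≠ 0 ∧ ∀ i ∈ s, X i *ᵥ v = 0 := by
  classical
  induction s using Finset.induction_on with
  | empty => obtain ⟨v, hv, h0⟩ := hS; exact ⟨v, hv, h0, by simp⟩
  | insert i s _ ih =>
    obtain ⟨v, hv, hv0, hs⟩ := ih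
    have hex := hnil i v hv
    have h0 : Nat.find hex ≠ 0 := fun h => hv0 (by
      have := Nat.find_spec hex
      rwa [h, pow_zero (X i), Matrix.one_mulVec] at this)
    obtain ⟨k, hk⟩ := Nat.exists_eq_succ_of_ne_zero h0
    have hpow : ∀ l, X i ^ l *ᵥ v ∈ S := fun l => by
      induction l with
      | zero => rwa [pow_zero (X i), Matrix.one_mulVec]
      | succ l ih => rw [pow_succ' (X i), ← Matrix.mulVec_mulVec]; exact hstab i _ ih
    refine ⟨X i ^ k *ᵥ v, hpow k, Nat.find_min hex (by omega), fun l hl => ?_⟩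
    rcases Finset.mem_insert.mp hl with rfl | hl
    · rw [Matrix.mulVec_mulVec, ← pow_succ' (X _)]
      have := Nat.find_spec hex
      rwa [hk] at this
    · rw [Matrix.mulVec_mulVec, ((hcomm l i).pow_right k).eq, ← Matrix.mulVec_mulVec, hs l hl,
        Matrix.mulVec_zero]

variable (A : HeckeAct p κ T 𝒢) {e : A.R0} (he : e * e = e) (heφ : A.φ e = 1)
  (hmin : ∀ f : A.R0, f * f = f → A.toHeckePart.θ f = 1 → e * f = e)

include he heφ hmin in
/-- The kernel of the residual representation fixes a common eigenvector of the algebra. -/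
theorem exists_fixed_kernel :
    ∃ v : κ → 𝔽, v ≠ 0 ∧ mred 1 (e : MatP) *ᵥ v = v ∧
      (∀ (x : A.R0) (b : ℤ_[p]), A.toHeckePart.θ x = A.toHeckePart.θ ⟨_, A.scalar b⟩ →
        mred 1 (x : MatP) *ᵥ v = PadicInt.toZModPow 1 b • v) ∧
      ∀ g ∈ Fixed.resKer A, mred 1 (A.G g) *ᵥ v = v := by
  classical
  have : NeZero (p ^ 1) := ⟨pow_ne_zero 1 hp.out.ne_zero⟩
  set E := mred 1 (e : MatP)
  have hEE : E * E = E := by rw [← map_mul]; exact congrArg _ (congrArg Subtype.val he)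
  set Z : Set (Matrix κ κ 𝔽) :=
    (fun x : A.R0 => mred 1 (x : MatP)) '' {x | A.toHeckePart.θ x = 0}
  have : Fintype Z := Fintype.ofFinite Z
  -- a vector killed by all of them
  obtain ⟨v0, hEv0, hv0, hker⟩ := exists_common_kernel (ι := Z) Finset.univ
    (fun X => (X : Matrix κ κ 𝔽)) {v | E *ᵥ v = v} (fun X v hv => by
      obtain ⟨_, x, -, rfl⟩ := X
      show E *ᵥ _ = _
      rw [Matrix.mulVec_mulVec, ((A.comm _ e.2 _ x.2).map (mred 1)).eq, ← Matrix.mulVec_mulVec, hv])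
    (fun X v hv => by
      obtain ⟨_, x, hx, rfl⟩ := X
      obtain ⟨j, hj⟩ := HeckePart.nil_of_θ hmin hx 1
      refine ⟨j, ?_⟩
      rw [← hv, Matrix.mulVec_mulVec, ← map_pow, ← map_mul, hj j le_rfl, Matrix.zero_mulVec])
    (fun X Y => by
      obtain ⟨_, x, -, rfl⟩ := X
      obtain ⟨_, y, -, rfl⟩ := Y
      exact (A.comm _ x.2 _ y.2).map (mred 1))
    (by
      have hE0 : E ≠ 0 := fun h => by
        have he0 : e = 0 := Subtype.ext (HeckePart.idem_eq_zero (congrArg Subtype.val he) h)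
        rw [he0, map_zero] at heφ
        exact zero_ne_one heφ
      obtain ⟨w, hw⟩ : ∃ w, E *ᵥ w ≠ 0 := by
        by_contra h
        push Not at h
        exact hE0 (Matrix.ext_iff_mulVec.mpr fun w => by rw [h w, Matrix.zero_mulVec])
      exact ⟨E *ᵥ w, by show E *ᵥ _ = _; rw [Matrix.mulVec_mulVec, hEE], hw⟩)
  -- the space of such vectors
  let S : AddSubgroup (κ → 𝔽) :=
    { carrier := {v | E *ᵥ v = v ∧ ∀ X ∈ Z, X *ᵥ v = 0}
      add_mem' := fun {v w} hv hw => ⟨by rw [Matrix.mulVec_add, hv.1, hw.1],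
        fun X hX => by rw [Matrix.mulVec_add, hv.2 X hX, hw.2 X hX, add_zero]⟩
      zero_mem' := ⟨Matrix.mulVec_zero _, fun X _ => Matrix.mulVec_zero X⟩
      neg_mem' := fun {v} hv => ⟨by rw [Matrix.mulVec_neg, hv.1],
        fun X hX => by rw [Matrix.mulVec_neg, hv.2 X hX, neg_zero]⟩ }
  have hstab : ∀ g, ∀ v ∈ S, mred 1 (A.G g) *ᵥ v ∈ S := fun g v hv => by
    refine ⟨?_, fun X hX => ?_⟩
    · rw [Matrix.mulVec_mulVec, ← ((A.commG g _ e.2).map (mred 1)).eq, ← Matrix.mulVec_mulVec,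
        hv.1]
    · have h0 := hv.2 X hX
      obtain ⟨x, -, rfl⟩ := hX
      rw [Matrix.mulVec_mulVec, ← ((A.commG g _ x.2).map (mred 1)).eq, ← Matrix.mulVec_mulVec, h0,
        Matrix.mulVec_zero]
  let : MulAction 𝒢 S :=
    { smul := fun g v => ⟨mred 1 (A.G g) *ᵥ v.1, hstab g _ v.2⟩
      one_smul := fun v => Subtype.ext <| by
        show mred 1 (A.G 1) *ᵥ v.1 = v.1
        rw [map_one, map_one, Matrix.one_mulVec]
      mul_smul := fun g h v => Subtype.ext <| by
        show mred 1 (A.G (g * h)) *ᵥ v.1 = mred 1 (A.G g) *ᵥ (mred 1 (A.G h) *ᵥ v.1)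
        rw [map_mul, map_mul, Matrix.mulVec_mulVec] }
  set P := (Fixed.resKer A).map (MulAction.toPermHom 𝒢 S)
  have hP : IsPGroup p P := by
    rintro ⟨σ, g, hg, rfl⟩
    obtain ⟨m, hm⟩ := Fixed.exists_pow_fix A he hmin hg
    refine ⟨m, Subtype.ext (Equiv.ext fun v => Subtype.ext ?_)⟩
    rw [SubmonoidClass.coe_pow, ← map_pow]
    show mred 1 (A.G (g ^ p ^ m)) *ᵥ v.1 = v.1
    conv_lhs => rw [← v.2.1, Matrix.mulVec_mulVec, ← map_mul, hm]
    exact v.2.1
  have hp0 : p • (⟨v0, hEv0, fun X hX => hker ⟨X, hX⟩ (Finset.mem_univ _)⟩ : S) = 0 :=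
    Subtype.ext <| funext fun i => by
      show p • v0 i = 0
      rw [nsmul_eq_mul, Fixed.natCast_p_eq_zero, zero_mul]
  have hdvd : p ∣ Nat.card S := by
    exact (addOrderOf_eq_prime hp0 fun h => hv0 (congrArg Subtype.val h)).symm.dvd.trans
      (addOrderOf_dvd_natCard _)
  obtain ⟨b, hb, hne⟩ := hP.exists_fixed_point_of_prime_dvd_card_of_fixed_point S hdvd (a := 0)
    (fun σ => by
      obtain ⟨_, g, -, rfl⟩ := σ
      exact Subtype.ext (Matrix.mulVec_zero (mred 1 (A.G g))))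
  refine ⟨b.1, fun h => hne (Subtype.ext h).symm, b.2.1, fun x c hx => ?_, fun g hg =>
    congrArg Subtype.val (hb ⟨_, g, hg, rfl⟩)⟩
  have h := b.2.2 (mred 1 ((x - ⟨_, A.scalar c⟩ : A.R0) : MatP))
    ⟨_, by show A.toHeckePart.θ _ = 0; rw [map_sub, hx, sub_self], rfl⟩
  rwa [AddSubgroupClass.coe_sub, map_sub, Matrix.sub_mulVec, Fixed.mred_algebraMap_mulVec,
    sub_eq_zero] at h

end

variable {p : ℕ} [hp : Fact p.Prime] {N : ℕ} [NeZero N]

local notation "ι₀" => Fin (parRank (Gamma0 N))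
local notation "MatN" => Matrix ι₀ ι₀ ℤ_[p]

omit [NeZero N] in
/-- The limit of the powers of a matrix fixes its eigenvectors with eigenvalue squaring to one. -/
theorem powLimit_mulVec_eq {U eO : MatN} {I : ℕ → ℕ} (heO : PowLimit U eO I)
    {am : ZMod (p ^ 1)} (ham : am * am = 1) {vh : ι₀ → ZMod (p ^ 1)}
    (hUvh : mred 1 U *ᵥ vh = am • vh) : mred 1 eO *ᵥ vh = vh := by
  have hpow : ∀ i, mred 1 U ^ i *ᵥ vh = am ^ i • vh := fun i => by
    induction i with
    | zero => simp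
    | succ i ih =>
      rw [pow_succ' (mred 1 U), ← Matrix.mulVec_mulVec, ih, Matrix.mulVec_smul, hUvh,
        smul_smul, pow_succ am]
  have e1 : mred 1 eO *ᵥ vh = am ^ (I 1 * (0 + 1)) • vh := by
    rw [← heO.spec 1 0, map_pow, hpow]
  have e2 : mred 1 eO *ᵥ (mred 1 eO *ᵥ vh) = vh := by
    rw [e1, Matrix.mulVec_smul, e1, smul_smul, ← mul_pow, ham, one_pow, one_smul]
  rwa [Matrix.mulVec_mulVec, ← map_mul, heO.idem] at e2

/-- **Trivial classes at `∞` of a residual system contradict irreducibility.** -/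
theorem false_of_trivEigen (hpN : p ∣ N) (hp2N : ¬ p ^ 2 ∣ N) {T : Type} [CommRing T]
    [IsLocalRing T] (A : HeckeAct p ι₀ T GQ) (hAG : A.G = ES.galMat p N)
    (hcyc : A.cyc = ES.padCyclo p) (hU : matU p N ∈ A.R0) (h2 : (2 : ResidueField T) ≠ 0)
    (hpT : (p : ResidueField T) = 0) {a : ℤ_[p]} (haa : a * a = 1)
    (hθU : A.toHeckePart.θ ⟨_, hU⟩ = A.toHeckePart.θ ⟨_, A.scalar a⟩)
    (C : (ℂ ≃+* PadicAlgCl p) → GQ → Prop) (hC : ∀ Φ g, C Φ g → g ∈ Fixed.resKer A)
    (hin : ∀ (Φ : ℂ ≃+* PadicAlgCl p) (z : ι₀ → ℤ_[p]),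
      (∀ (x : A.R0) (b : ℤ_[p]), A.toHeckePart.θ x = A.toHeckePart.θ ⟨_, A.scalar b⟩ →
        Cgr 1 ((x : MatN) *ᵥ z) (b • z)) →
      (∀ g, C Φ g → Cgr 1 (ES.galMat p N g *ᵥ z) z) → TrivVec (stableCoeffs Φ) 1 z) :
    False := by
  obtain ⟨e, he, heφ, hmin⟩ := A.toHeckePart.exists_idem
  have hEE : (e : MatN) * (e : MatN) = (e : MatN) := congrArg Subtype.val he
  have hcG : ∀ g, ∀ r ∈ A.R0, Commute (ES.galMat p N g) r := fun g r hr => by
    have := A.commG g r hr
    rwa [hAG] at this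
  obtain ⟨v, hv0, hev, hker, hfix⟩ := exists_fixed_kernel A he heφ hmin
  have hUv := hker ⟨_, hU⟩ a hθU
  have hsmall := A.small_of_cyc he heφ hmin hcyc h2
  have hs : SmallVec (e : MatN) := fun X h1 h' => hsmall X h1 fun x y => by
    rw [hAG]; exact h' x y
  have hθU0 : A.toHeckePart.θ ⟨_, hU⟩ ≠ 0 := fun h => one_ne_zero (α := ResidueField T) (by
    calc (1 : ResidueField T) = A.toHeckePart.θ (⟨_, A.scalar a⟩ * ⟨_, A.scalar a⟩) := by
          rw [← map_one A.toHeckePart.θ]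
          refine congrArg _ (Subtype.ext ?_)
          show (1 : MatN) = algebraMap ℤ_[p] MatN a * algebraMap ℤ_[p] MatN a
          rw [← map_mul, haa, map_one]
      _ = 0 := by rw [map_mul, ← hθU, h, zero_mul])
  -- level data and the inertia element
  obtain ⟨M0, M, m, hM00, hM0, hM, L, g, haux, hdiv, hsq⟩ := exists_level_of_dvd hpN hp2N
  obtain ⟨P0, hP0⟩ := GaloisBasic.exists_liesOverPrime hp.out
  obtain ⟨σ, hσ, hσw⟩ := RT.exists_inertia_cyclotomic hp.out hP0 (-1 : (ZMod p)ˣ)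
  obtain ⟨Φ, hΦ⟩ := ES.exists_padicEquiv_compat hP0
  have hcy := toZModPow_padCyclo_eq_wVal (p := p) σ
  have hwp : wVal p σ ≤ p := by
    have : NeZero (p ^ 1) := ⟨pow_ne_zero 1 hp.out.ne_zero⟩
    exact (ZMod.val_lt _).le.trans_eq (pow_one p)
  obtain ⟨σC, hσC⟩ := exists_cycExt hP0 hΦ hM hσ
    (fun y hy => ES.padCyclo_spec p σ 1 (by rw [pow_one]; exact hy)) hwp
  have hw1 := (wVal_cast_ne (K := ResidueField T) hpT h2 hσw).1
  obtain ⟨eO, I, heO⟩ := exists_powLimit (matU p N)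
  set E := mred 1 (e : MatN)
  set am := PadicInt.toZModPow 1 a
  have ham : am * am = 1 := by rw [← map_mul, haa, map_one]
  -- inertia acts through the cyclotomic character on all translates
  have key : ∀ h : GQ, mred 1 (ES.galMat p N σ) *ᵥ (mred 1 (ES.galMat p N h) *ᵥ v) =
      PadicInt.toZModPow 1 (ES.padCyclo p σ) • (mred 1 (ES.galMat p N h) *ᵥ v) := by
    intro h
    set vh := mred 1 (ES.galMat p N h) *ᵥ v
    obtain ⟨z, hz⟩ := Fixed.exists_red vh
    have hevh : E *ᵥ vh = vh := by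
      rw [Matrix.mulVec_mulVec, ← ((hcG h _ e.2).map (mred 1)).eq, ← Matrix.mulVec_mulVec, hev]
    have hUvh : mred 1 (matU p N) *ᵥ vh = am • vh := by
      rw [Matrix.mulVec_mulVec, ← ((hcG h _ hU).map (mred 1)).eq, ← Matrix.mulVec_mulVec, hUv,
        Matrix.mulVec_smul]
    have hfixh : ∀ g ∈ Fixed.resKer A, mred 1 (ES.galMat p N g) *ᵥ vh = vh := fun g hg => by
      have h1 := hfix (h⁻¹ * g * h) (by
        have := (inferInstance : (Fixed.resKer A).Normal).conj_mem g hg h⁻¹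
        rwa [inv_inv] at this)
      rw [hAG] at h1
      calc mred 1 (ES.galMat p N g) *ᵥ vh
          = mred 1 (ES.galMat p N h) *ᵥ (mred 1 (ES.galMat p N (h⁻¹ * g * h)) *ᵥ v) := by
            rw [Matrix.mulVec_mulVec, Matrix.mulVec_mulVec, ← map_mul (mred 1),
              ← map_mul (mred 1), ← map_mul, ← map_mul,
              show h * (h⁻¹ * g * h) = g * h by group]
        _ = vh := by rw [h1]
    have hze : Cgr 1 ((e : MatN) *ᵥ z) z := cgr_iff_red.mpr (by rw [Fixed.red_mulVec, hz, hevh])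
    have hzU : Cgr 1 (matU p N *ᵥ z) (a • z) :=
      cgr_iff_red.mpr (by rw [Fixed.red_mulVec, Fixed.red_smul, hz, hUvh])
    have heig : ∀ (x : A.R0) (b : ℤ_[p]),
        A.toHeckePart.θ x = A.toHeckePart.θ ⟨_, A.scalar b⟩ →
        Cgr 1 ((x : MatN) *ᵥ z) (b • z) := fun x b hx => cgr_iff_red.mpr (by
      rw [Fixed.red_mulVec, Fixed.red_smul, hz, Matrix.mulVec_mulVec,
        ← ((hcG h _ x.2).map (mred 1)).eq, ← Matrix.mulVec_mulVec, hker x b hx, Matrix.mulVec_smul])
    have hzT : TrivVec (stableCoeffs Φ) 1 z :=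
      hin Φ z heig fun g hg =>
        cgr_iff_red.mpr (by rw [Fixed.red_mulVec, hz, hfixh g (hC Φ g hg)])
    have heOv : mred 1 eO *ᵥ vh = vh := powLimit_mulVec_eq heO ham hUvh
    have hzO : Cgr 1 (eO *ᵥ z) z := cgr_iff_red.mpr (by rw [Fixed.red_mulVec, hz, heOv])
    have hres := cgr_galMat_of_triv (K := stableCoeffs Φ) hM L haux hdiv hpN hσC
      hsq hs (hcG σ _ e.2) heO hzT hze hzO
    rw [cgr_iff_red] at hres
    rw [hcy, ← hz, ← Fixed.red_mulVec, ← map_natCast (PadicInt.toZModPow 1), ← Fixed.red_smul]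
    funext i
    have := congrFun hres i
    simp only [Fixed.red, Pi.sub_apply, Pi.zero_apply, map_sub, map_zero, sub_eq_zero] at this
    exact this
  -- the conclusion
  have htr := trace_inertia_of_unit hpN hp2N A hAG hcyc hU hθU0 h2 hP0 hσ
  have hd : A.toHeckePart.θ (A.d σ) = (wVal p σ : ResidueField T) := by
    refine theta_scalar_eq_natCast A.toHeckePart hpT ?_
    rw [hcyc]; exact hcy
  let y : Matrix ι₀ ι₀ (ZMod (p ^ 1)) := Matrix.of fun i _ => v i
  have hmy : ∀ (X : Matrix ι₀ ι₀ (ZMod (p ^ 1))) (i j : ι₀), (X * y) i j = (X *ᵥ v) i :=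
    fun X i j => rfl
  have hy : y = 0 := A.eq_zero_of_eigen he heφ hmin (mred 1)
    (Matrix.ext fun i j => (hmy _ i j).trans (congrFun hev i)) σ (α := A.d σ)
    (β := A.τ σ - A.d σ) (add_sub_cancel _ _) (by
      rw [map_sub, map_sub, show A.toHeckePart.θ (A.τ σ) = residue T (A.M σ).trace from
        congrArg (residue T) (A.tr σ), htr, ← show A.toHeckePart.θ (A.d σ) = residue T (A.M σ).det
        from congrArg (residue T) (A.det σ), hd]
      intro h
      exact hw1 (by linear_combination h)) fun h => by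
      rw [hAG, ← mul_assoc, ← mul_assoc]
      refine Matrix.ext fun i j => ?_
      rw [hmy, hmy, ← Matrix.mulVec_mulVec, ← Matrix.mulVec_mulVec, key]
      show _ = (mred 1 (algebraMap ℤ_[p] MatN (A.cyc σ)) *ᵥ _) i
      rw [Fixed.mred_algebraMap_mulVec, hcyc]
  exact hv0 (funext fun i => congrFun (congrFun hy i) i)

end FermatAgent.BAD.AtP
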