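import Fermat.Agent.BAD.TwoP.Kummer

/-!
# A family permuted by translations over `ℚ_p(ζ_p, μ_(p ^ 2 - 1))`

If `p` numbers, one of absolute value an integral power of that of `p`, are translated by the
automorphisms fixing `ℚ_p(ζ_p, μ_(p ^ 2 - 1))`, compatibly with conjugation, and are relatively
as far apart as `ζ - 1`, then automorphisms also fixing `(1 + p) ^ (1 / p)` translate trivially.
-/

set_option autoImplicit false

noncomputable section

open IntermediateField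

namespace FermatAgent.BAD.AtP

open FermatAgent.BAD.TwoP
open CFT.Local (Gal' norm_q_pos)

variable {p : ℕ} [hp : Fact p.Prime] {ζ : PadicAlgCl p} (hζ : IsPrimitiveRoot ζ p)

local notation "L₀" => lField p ζ 2

include hζ in
theorem zeta_pow_eq {a b : ℕ} (h : (a : ZMod p) = b) : ζ ^ a = ζ ^ b := by
  rw [ZMod.natCast_eq_natCast_iff'] at h
  rw [pow_eq_pow_mod a hζ.pow_eq_one, h, ← pow_eq_pow_mod b hζ.pow_eq_one]

include hζ in
/-- **The translation is trivial.** -/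
theorem shift_eq_zero (hp2 : p ≠ 2) (U : ZMod p → PadicAlgCl p) (T : Gal' p → ZMod p)
    (hU : ∀ τ ∈ (L₀).fixingSubgroup, ∀ i, τ (U i) = U (i + T τ))
    (hT : ∀ τ : Gal' p, ∀ σ ∈ (L₀).fixingSubgroup,
      ∃ a : ℕ, τ ζ = ζ ^ a ∧ T σ = a * T (τ⁻¹ * σ * τ))
    {k : ℤ} (hnormU : ‖U 0‖ = ‖(p : PadicAlgCl p)‖ ^ k)
    (hgap : ∀ i, i ≠ 0 → ‖(p : PadicAlgCl p)‖ * ‖U 0‖ ^ (p - 1) ≤ ‖U i - U 0‖ ^ (p - 1))
    {s : Gal' p} (hsL : s ∈ (L₀).fixingSubgroup) (hsw : s (wRoot p) = wRoot p) : T s = 0 := by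
  classical
  have : NeZero p := ⟨hp.out.ne_zero⟩
  have hUpos : 0 < ‖U 0‖ := by rw [hnormU]; exact zpow_pos norm_q_pos k
  have hsζ : s ζ = ζ := (mem_fixingSubgroup_iff _ s).mp hsL _ (zeta_mem_lField 2)
  -- the resolvent
  obtain ⟨m, hm⟩ : ∃ m : ℕ, ∑ i : ZMod p, ζ ^ (-i).val * U i ^ m ≠ 0 := by
    by_contra hall
    simp only [ne_eq, not_exists, not_not] at hall
    set F : Polynomial (PadicAlgCl p) :=
      ∏ i ∈ Finset.univ.erase (0 : ZMod p), (Polynomial.X - Polynomial.C (U i))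
    have h1 : ∑ i : ZMod p, ζ ^ (-i).val * F.eval (U i) = 0 := by
      simp only [Polynomial.eval_eq_sum_range, Finset.mul_sum]
      rw [Finset.sum_comm]
      refine Finset.sum_eq_zero fun j _ => ?_
      simp only [mul_left_comm _ (F.coeff j)]
      rw [← Finset.mul_sum, hall j, mul_zero]
    rw [Finset.sum_eq_single (0 : ZMod p)] at h1
    · rw [neg_zero, ZMod.val_zero, pow_zero, one_mul, Polynomial.eval_prod,
        Finset.prod_eq_zero_iff] at h1
      obtain ⟨i, hi, hi'⟩ := h1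
      rw [Polynomial.eval_sub, Polynomial.eval_X, Polynomial.eval_C, sub_eq_zero] at hi'
      have := hgap i (Finset.ne_of_mem_erase hi)
      rw [← hi', sub_self, norm_zero,
        zero_pow (Nat.sub_pos_of_lt hp.out.one_lt).ne'] at this
      exact absurd this (not_le.mpr (mul_pos norm_q_pos (pow_pos hUpos _)))
    · intro i _ hi
      rw [Polynomial.eval_prod, Finset.prod_eq_zero
        (Finset.mem_erase.mpr ⟨hi, Finset.mem_univ i⟩) (by simp), mul_zero]
    · intro h0; exact absurd (Finset.mem_univ _) h0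
  set b := ∑ i : ZMod p, ζ ^ (-i).val * U i ^ m
  have hb : ∀ τ ∈ (L₀).fixingSubgroup, τ b = ζ ^ (T τ).val * b := by
    intro τ hτ
    have hτζ : τ ζ = ζ := (mem_fixingSubgroup_iff _ τ).mp hτ _ (zeta_mem_lField 2)
    rw [map_sum, Finset.mul_sum]
    refine Fintype.sum_equiv (Equiv.addRight (T τ)) _ _ fun i => ?_
    rw [map_mul, map_pow, map_pow, hτζ, hU τ hτ, Equiv.coe_addRight, ← mul_assoc, ← pow_add]
    congr 1
    refine zeta_pow_eq hζ ?_
    rw [Nat.cast_add, ZMod.natCast_zmod_val, ZMod.natCast_zmod_val, ZMod.natCast_zmod_val]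
    ring
  have hbq : b ^ p ∈ L₀ := by
    refine CFT.Local.exists_apply_eq_of_mem _ fun τ hτ => ?_
    rw [map_pow, hb τ hτ, mul_pow, ← pow_mul, mul_comm _ p, pow_mul, hζ.pow_eq_one, one_pow,
      one_mul]
  have hgen : ∀ τ : Gal' p, τ b / b ∈ L₀ := by
    intro τ
    refine CFT.Local.exists_apply_eq_of_mem _ fun σ hσ => ?_
    obtain ⟨a, ha, hac⟩ := hT τ σ hσ
    have h3 : σ (τ b) = τ ((τ⁻¹ * σ * τ) b) := (τ.apply_symm_apply _).symm
    have h2 : σ (τ b) = ζ ^ (T σ).val * τ b := by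
      rw [h3, hb _ (conj_mem_fixingSubgroup hζ τ hσ), map_mul, map_pow, ha, ← pow_mul,
        zeta_pow_eq hζ (a := a * _) (b := (T σ).val) (by
          rw [Nat.cast_mul, ZMod.natCast_zmod_val, ZMod.natCast_zmod_val, hac])]
    rw [map_div₀, h2, hb σ hσ, mul_div_mul_left _ _ (pow_ne_zero _ (hζ.ne_zero hp.out.ne_zero))]
  obtain ⟨b', r', hb'0, hb', hmem⟩ := exists_descent hζ hp2 hm hbq hgen
  have hc0 : ∀ {τ : Gal' p}, τ ∈ (L₀).fixingSubgroup → τ b = b → T τ = 0 := by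
    intro τ hτ hfb
    rw [hb τ hτ, mul_eq_right₀ hm, hζ.pow_eq_one_iff_dvd] at hfb
    rw [← ZMod.natCast_zmod_val (T τ), ZMod.natCast_eq_zero_iff]
    exact hfb
  have hsup : ∀ {τ : Gal' p}, τ ∈ (L₀).fixingSubgroup → ∀ {β : PadicAlgCl p}, τ β = β →
      ∀ z ∈ L₀ ⊔ ℚ_[p]⟮β⟯, τ z = z := by
    intro τ hτ β hβ z hz
    have hle : L₀ ⊔ ℚ_[p]⟮β⟯ ≤ fixedField (Subgroup.zpowers τ) := by
      refine sup_le (fun w hw => (mem_fixedField_iff _ w).mpr fun f hf => ?_)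
        (adjoin_simple_le_iff.mpr ((mem_fixedField_iff _ β).mpr fun f hf => ?_))
      · exact (mem_fixingSubgroup_iff _ f).mp (Subgroup.zpowers_le.mpr hτ hf) w hw
      · exact (Subgroup.zpowers_le.mpr
          (show τ ∈ MulAction.stabilizer (Gal' p) β from hβ)) hf
    exact (mem_fixedField_iff _ z).mp (hle hz) τ (Subgroup.mem_zpowers τ)
  have hU0mem : U 0 ∈ L₀ ⊔ ℚ_[p]⟮b'⟯ := by
    refine CFT.Local.exists_apply_eq_of_mem _ fun τ hτ => ?_
    have hτ' := (mem_fixingSubgroup_iff _ τ).mp hτ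
    have hτL : τ ∈ (L₀).fixingSubgroup :=
      (mem_fixingSubgroup_iff _ τ).mpr fun z hz => hτ' z (le_sup_left (b := ℚ_[p]⟮b'⟯) hz)
    rw [hU τ hτL, hc0 hτL (hτ' b hmem), add_zero]
  by_cases hval : (p : ℤ) ∣ r'.valuation
  · exact hc0 hsL (hsup hsL (apply_eq_of_dvd_valuation hζ hp2 hb'0 hb' hval hsζ hsw) b hmem)
  · by_contra hne
    have h1 := norm_apply_sub_lt_of_not_dvd hζ hb'0 hb' hval hU0mem hsL hnormU
    rw [hU s hsL, zero_add, ← hnormU] at h1
    have h2 := (hgap _ hne).trans_lt (pow_lt_pow_left₀ h1 (norm_nonneg _)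
      (Nat.sub_pos_of_lt hp.out.one_lt).ne')
    rw [mul_pow, norm_zeta_sub_one_pow hζ, mul_comm] at h2
    exact lt_irrefl _ h2

end FermatAgent.BAD.AtP

end
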