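import Fermat.Agent.PSEMI.EC.OrdinaryInertia

/-!
# Translates by points reducing to zero

Over a valuation subring: a bound for the product of the roots outside it of a polynomial over it,
and the distance of the abscissas of `Q + D` and `Q - D` for an integral point `Q` and a point `D`
reducing to zero.
-/

set_option autoImplicit false

noncomputable section

open WeierstrassCurve Polynomial
open scoped WeierstrassCurve.Affine

namespace FermatAgent.BAD.AtP

open FermatAgent.ECLocal

variable {K : Type} [Field K] (A : ValuationSubring K)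

/-- The leading coefficient times the roots outside `A` is integral. -/
theorem valuation_leading_mul_roots_le {f : A[X]} (hsplit : (f.map A.subtype).Splits)
    [DecidablePred fun r : K => r ∈ A] :
    A.valuation (f.map A.subtype).leadingCoeff *
      (((f.map A.subtype).roots.filter fun r => r ∉ A).map A.valuation).prod ≤ 1 := by
  classical
  set R := (f.map A.subtype).roots
  set B := R.filter fun r => r ∉ A
  set S := R.filter fun r => r ∈ A
  obtain ⟨g, hg1, hg2⟩ := exists_lift_prod_of_not_mem A B fun r hr => (Multiset.mem_filter.mp hr).2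
  obtain ⟨h, hh1, hh2⟩ : ∃ h : A[X], h.Monic ∧ (S.map fun r => X - C r).prod = h.map A.subtype := by
    refine ⟨(S.attach.map fun r => X - C (⟨r.1, (Multiset.mem_filter.mp r.2).2⟩ : A)).prod,
      monic_multiset_prod_of_monic _ _ fun r _ => monic_X_sub_C _, ?_⟩
    rw [Polynomial.map_multiset_prod, Multiset.map_map]
    conv_lhs => rw [← Multiset.attach_map_val S, Multiset.map_map]
    congr 1
    exact Multiset.map_congr rfl fun r _ => by simp
  set c := (f.map A.subtype).leadingCoeff * (B.map fun r => -r).prod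
  have e : f.map A.subtype = C c * (g * h).map A.subtype := by
    conv_lhs => rw [hsplit.eq_prod_roots]
    rw [Polynomial.map_mul, C_mul, mul_assoc, ← mul_assoc (C (B.map fun r => -r).prod), ← hg2,
      ← hh2, ← Multiset.prod_add, ← Multiset.map_add]
    congr 3
    rw [add_comm]
    exact (Multiset.filter_add_not _ R).symm
  have hv : A.valuation c = A.valuation (f.map A.subtype).leadingCoeff *
      (B.map A.valuation).prod := by
    rw [map_mul, map_multiset_prod, Multiset.map_map]
    congr 2
    exact Multiset.map_congr rfl fun r _ => A.valuation.map_neg r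
  rw [← hv]
  by_contra hc
  have hc0 : c ≠ 0 := fun h0 => hc (by rw [h0, map_zero]; exact zero_le)
  have hcinv : A.valuation c⁻¹ < 1 := by
    rw [map_inv₀]; exact inv_lt_one_of_one_lt₀ (not_le.mp hc)
  set u : A := ⟨c⁻¹, mem_of_valuation_lt_one A hcinv⟩
  have e' : g * h = C u * f := by
    apply Polynomial.map_injective A.subtype A.subtype_injective
    rw [Polynomial.map_mul A.subtype (p := C u), map_C, e, ← mul_assoc, ← C_mul,
      show A.subtype u * c = 1 from inv_mul_cancel₀ hc0, C_1, one_mul]
  have h1 := congrArg (Polynomial.map (IsLocalRing.residue A)) e'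
  rw [Polynomial.map_mul, Polynomial.map_mul, map_C,
    show IsLocalRing.residue A u = 0 from (residue_eq_zero_iff A u).mpr hcinv, C_0, zero_mul, hg1,
    one_mul] at h1
  exact (hh1.map _).ne_zero h1

variable [DecidableEq K]

/-- **The abscissas of the two translates.** -/
theorem valuation_X_add_sub_X_sub {V : WeierstrassCurve K} (h1A : V.a₁ ∈ A) (h3A : V.a₃ ∈ A)
    (h2 : A.valuation (2 : K) = 1) {xQ yQ xD yD : K} (hQ : V.toAffine.Nonsingular xQ yQ)
    (hD : V.toAffine.Nonsingular xD yD) (hxQ : xQ ∈ A) (hxD : xD ∉ A)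
    (hQ2 : A.valuation (2 * yQ + V.a₁ * xQ + V.a₃) = 1)
    (hyD : A.valuation yD ^ 2 = A.valuation xD ^ 3) :
    ∃ (x₁ y₁ : K) (h₁ : V.toAffine.Nonsingular x₁ y₁) (x₂ y₂ : K)
      (h₂ : V.toAffine.Nonsingular x₂ y₂),
      Affine.Point.some _ _ hQ + Affine.Point.some _ _ hD = Affine.Point.some _ _ h₁ ∧
      Affine.Point.some _ _ hQ - Affine.Point.some _ _ hD = Affine.Point.some _ _ h₂ ∧
      A.valuation (x₁ - x₂) ^ 2 * A.valuation xD = 1 := by
  have hne : xQ ≠ xD := fun h => hxD (h ▸ hxQ)
  refine ⟨_, _, Affine.nonsingular_add hQ hD fun hxy => hne hxy.1, _, _,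
    Affine.nonsingular_add hQ ((Affine.nonsingular_neg ..).mpr hD) fun hxy => hne hxy.1,
    Affine.Point.add_of_X_ne hne, ?_, ?_⟩
  · rw [sub_eq_add_neg, Affine.Point.neg_some, Affine.Point.add_of_X_ne hne]
  have hd : xQ - xD ≠ 0 := sub_ne_zero.mpr hne
  have hxD1 : 1 < A.valuation xD := (one_lt_valuation_iff A).mpr hxD
  have hyD1 : A.valuation xD < A.valuation yD := by
    refine lt_of_not_ge fun h => absurd (pow_le_pow_left₀ zero_le h 2) (not_le.mpr ?_)
    rw [hyD]
    exact pow_lt_pow_right₀ hxD1 (by norm_num)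
  have e : V.toAffine.addX xQ xD (V.toAffine.slope xQ xD yQ yD) -
      V.toAffine.addX xQ xD (V.toAffine.slope xQ xD yQ (V.toAffine.negY xD yD)) =
      -((2 * yD + V.a₁ * xD + V.a₃) * (2 * yQ + V.a₁ * xQ + V.a₃)) / (xQ - xD) ^ 2 := by
    rw [Affine.slope_of_X_ne hne, Affine.slope_of_X_ne hne]
    simp only [Affine.addX, Affine.negY]
    field_simp
    ring
  rw [e, map_div₀, Valuation.map_neg, map_mul, hQ2, mul_one, map_pow]
  have v1 : A.valuation (xQ - xD) = A.valuation xD :=
    A.valuation.map_sub_eq_of_lt_right (lt_of_le_of_lt ((A.valuation_le_one_iff _).mpr hxQ) hxD1)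
  have v2 : A.valuation (2 * yD + V.a₁ * xD + V.a₃) = A.valuation yD := by
    have hy : A.valuation (2 * yD) = A.valuation yD := by rw [map_mul, h2, one_mul]
    have hx : A.valuation (V.a₁ * xD) < A.valuation (2 * yD) := by
      rw [hy, map_mul]
      exact lt_of_le_of_lt (mul_le_of_le_one_left' ((A.valuation_le_one_iff _).mpr h1A)) hyD1
    have h12 := A.valuation.map_add_eq_of_lt_left hx
    rw [A.valuation.map_add_eq_of_lt_left ?_, h12, hy]
    rw [h12, hy]
    exact lt_of_le_of_lt ((A.valuation_le_one_iff _).mpr h3A) (hxD1.trans hyD1)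
  have hne0 : A.valuation xD ≠ 0 := (ne_of_gt (zero_lt_one.trans hxD1))
  rw [v1, v2, div_pow, hyD, ← pow_mul, div_mul_eq_mul_div, ← pow_succ, div_self]
  exact pow_ne_zero _ hne0

end FermatAgent.BAD.AtP

end
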