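import Fermat.Agent.BAD.AtP.Gal.GoodSign
import Fermat.Agent.BAD.AtP.Gal.Resolvent
import Fermat.Agent.BAD.AtP.Gal.XGap
import Fermat.Agent.BAD.TwoP.Torsion

/-!
# The torsion at a place of good ordinary reduction with a quadratic sign

The automorphisms fixing `ℚ_p(ζ_p, μ_(p ^ 2 - 1), (1 + p) ^ (1 / p))` fix all the points of
order `p`.
-/

set_option autoImplicit false

noncomputable section

open WeierstrassCurve IntermediateField
open scoped WeierstrassCurve.Affine

namespace FermatAgent.BAD.AtP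

open FermatAgent.ECLocal FermatAgent.TateRep FermatAgent.BAD.TwoP
open FermatAgent.ES (embC CPlace)
open CFT.Local (botF Gal' unramRoot)

local notation "Qbar" => AlgebraicClosure ℚ
local notation "GQ" => AlgebraicClosure ℚ ≃ₐ[ℚ] AlgebraicClosure ℚ

variable {W : WeierstrassCurve ℤ} {p : ℕ} [hp : Fact p.Prime] {A : ValuationSubring Qbar}

/-- The abscissa of a point, zero at infinity. -/
def xc : Pts W → Qbar
  | .zero => 0
  | .some x _ _ => x

theorem xc_galois (σ : GQ) (R : Pts W) : xc (σ • R) = σ (xc R) := by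
  rcases R with _ | ⟨x, y, h⟩
  · exact (map_zero σ).symm
  · rfl

theorem xc_mem {R : Pts W} (hR : R ∉ kerRed W A) : xc R ∈ A := by
  rcases R with _ | ⟨x, y, h⟩
  · exact zero_mem _
  · by_contra hx
    exact hR ((kerRed_some_iff h).mpr hx)

/-- A point of the curve lies on its model at the place. -/
theorem gen_equation {x y : Qbar}
    (h : ((W.map (Int.castRingHom ℚ))⁄Qbar).toAffine.Equation x y) :
    (gen (modelAt W A)).toAffine.Equation x y := gen_modelAt W A ▸ h

/-- The coefficients `a₁`, `a₃` are integral at the place. -/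
theorem coeff_mem :
    ((W.map (Int.castRingHom ℚ))⁄Qbar).a₁ ∈ A ∧ ((W.map (Int.castRingHom ℚ))⁄Qbar).a₃ ∈ A := by
  constructor
  · show algebraMap ℚ Qbar ((Int.castRingHom ℚ) W.a₁) ∈ A
    simp
  · show algebraMap ℚ Qbar ((Int.castRingHom ℚ) W.a₃) ∈ A
    simp

variable (hA : A.LiesOverPrime p) (hgood : W.IsGoodPrimeFor p) (hΔ0 : W.Δ ≠ 0) (hp2 : p ≠ 2)

include hA hgood in
/-- The multiples of the point reducing to zero have abscissas of one valuation. -/
theorem valuation_xc_nsmul (S : GoodLines W p A) {i : ℕ} (hi : (i : ZMod p) ≠ 0) :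
    A.valuation (xc (i • S.C)) = A.valuation (xc S.C) := by
  obtain ⟨σ, hσ, hσw⟩ := RT.exists_inertia_cyclotomic hp.out hA (Units.mk0 _ hi)
  have hσD := GaloisBasic.inertiaSubgroupIn_le_decompositionSubgroup A hσ
  obtain ⟨X, Z, c, hC, hP, hXZ, -⟩ := S.act σ hσD
  have : NeZero p := ⟨hp.out.ne_zero⟩
  obtain ⟨μ, hμ⟩ := HasEnoughRootsOfUnity.exists_primitiveRoot Qbar p
  rw [S.sign_inertia hA hgood hσ hP, mul_one, cyc_eq_of_apply hμ (hσw μ hμ.pow_eq_one),
    ZMod.natCast_zmod_val, Units.val_mk0] at hXZ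
  rw [← valuation_map_of_mem_decomposition A σ hσD (xc S.C), ← xc_galois, hC,
    nsmul_eq_nsmul_of_cast S.tor_C hXZ]

include hA hgood hΔ0 hp2

/-- **The abscissa of a point of order `p` reducing to zero.** -/
theorem valuation_xC_pow_le (S : GoodLines W p A) :
    A.valuation (xc S.C) ^ ((p - 1) / 2) * A.valuation (p : Qbar) ≤ 1 := by
  classical
  have hodd : Odd p := hp.out.odd_of_ne_two hp2
  have hV0 := baseChange_Δ_ne (W := W) hΔ0
  have hpK : (p : Qbar) ≠ 0 := Nat.cast_ne_zero.mpr hp.out.ne_zero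
  set V := ((W.map (Int.castRingHom ℚ))⁄Qbar) with hV
  set f : Polynomial A := (modelAt W A).preΨ' p with hfdef
  have hfK : f.map A.subtype = V.preΨ' p := by
    rw [hfdef, ← WeierstrassCurve.map_preΨ']
    congr 1
  have hdeg : (V.preΨ' p).natDegree = (p ^ 2 - 1) / 2 := by
    rw [WeierstrassCurve.natDegree_preΨ' V hpK, if_neg (Nat.not_even_iff_odd.mpr hodd)]
  have hlead : (V.preΨ' p).leadingCoeff = (p : Qbar) := by
    rw [Polynomial.leadingCoeff, hdeg]
    have := WeierstrassCurve.coeff_preΨ' V p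
    rw [if_neg (Nat.not_even_iff_odd.mpr hodd), if_neg (Nat.not_even_iff_odd.mpr hodd)] at this
    exact_mod_cast this
  have hne : V.preΨ' p ≠ 0 := fun h => hpK (by rw [← hlead, h, Polynomial.leadingCoeff_zero])
  -- the multiples of the point
  have key : ∀ i : ℕ, (i : ZMod p) ≠ 0 → ∃ (x y : Qbar) (h : V.toAffine.Nonsingular x y),
      i • S.C = .some x y h ∧ x ∉ A ∧ A.valuation x = A.valuation (xc S.C) ∧
      x ∈ (f.map A.subtype).roots := by
    intro i hi
    have h0 : i • S.C ≠ 0 := fun h => hi (by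
      rw [← Nat.cast_zero]
      exact cast_eq_cast_of_nsmul_eq S.tor_C S.C_ne_zero (by rw [h, zero_nsmul]))
    rcases e : i • S.C with _ | ⟨x, y, h⟩
    · exact absurd e h0
    have hmem : (Affine.Point.some x y h : Pts W) ∈ kerRed W A :=
      e ▸ (kerRed W A).nsmul_mem S.mem_C i
    refine ⟨x, y, h, rfl, (kerRed_some_iff h).mp hmem, ?_, ?_⟩
    · rw [← valuation_xc_nsmul hA hgood S hi, e]; rfl
    · rw [Polynomial.mem_roots (by rw [hfK]; exact hne), Polynomial.IsRoot, hfK]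
      exact (EC.mem_roots_preΨ'_iff hV0 hodd h).mp (by
        rw [← e, ← mul_nsmul', mul_comm, mul_nsmul', S.tor_C, nsmul_zero])
  set I := Finset.Icc 1 ((p - 1) / 2)
  have hI : ∀ i ∈ I, (i : ZMod p) ≠ 0 ∧ i ≤ (p - 1) / 2 := fun i hi => by
    rw [Finset.mem_Icc] at hi
    refine ⟨fun h => ?_, hi.2⟩
    have := Nat.le_of_dvd (by omega) ((ZMod.natCast_eq_zero_iff _ _).mp h)
    omega
  set xs := I.image fun i => xc (i • S.C)
  have hinj : Set.InjOn (fun i => xc (i • S.C)) (↑I : Set ℕ) := by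
    intro i hi j hj hij
    obtain ⟨x, y, h, e, -, -, -⟩ := key i (hI i hi).1
    obtain ⟨x', y', h', e', -, -, -⟩ := key j (hI j hj).1
    have hij' : x = x' := by
      simp only [e, e'] at hij
      exact hij
    have := hp.out.two_le
    have hi2 := (hI i hi).2
    have hj2 := (hI j hj).2
    rcases Affine.Point.X_eq_iff.mp hij' with e2 | e2
    · have h2 : i • S.C = j • S.C := by rw [e, e']; exact e2
      have := (ZMod.natCast_eq_natCast_iff' _ _ _).mp
        (cast_eq_cast_of_nsmul_eq S.tor_C S.C_ne_zero h2)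
      rwa [Nat.mod_eq_of_lt (by omega), Nat.mod_eq_of_lt (by omega)] at this
    · have h2 : i • S.C + j • S.C = 0 := by rw [e, e', eq_neg_iff_add_eq_zero] at *; exact e2
      rw [← add_nsmul, ← zero_nsmul S.C] at h2
      have := cast_eq_cast_of_nsmul_eq S.tor_C S.C_ne_zero h2
      rw [Nat.cast_zero] at this
      have := Nat.le_of_dvd (by
        rw [Finset.coe_Icc, Set.mem_Icc] at hi
        omega) ((ZMod.natCast_eq_zero_iff _ _).mp this)
      omega
  have hcard : xs.card = (p - 1) / 2 := by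
    rw [Finset.card_image_of_injOn hinj, Nat.card_Icc, Nat.add_sub_cancel]
  have hle : xs.val ≤ (f.map A.subtype).roots.filter fun r => r ∉ A := by
    refine (Multiset.le_iff_subset xs.nodup).mpr fun x hx => ?_
    obtain ⟨i, hi, rfl⟩ := Finset.mem_image.mp (Finset.mem_val.mp hx)
    obtain ⟨x, y, h, e, hxA, -, hroot⟩ := key i (hI i hi).1
    rw [e]
    exact Multiset.mem_filter.mpr ⟨hroot, hxA⟩
  have hbound := valuation_leading_mul_roots_le A (f := f) (IsAlgClosed.splits _)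
  rw [hfK, hlead] at hbound
  rw [hfK] at hle
  refine le_trans ?_ hbound
  rw [mul_comm (A.valuation (xc S.C) ^ _)]
  gcongr
  obtain ⟨T, hT⟩ := Multiset.le_iff_exists_add.mp hle
  rw [hT, Multiset.map_add, Multiset.prod_add]
  have h1 : (xs.val.map A.valuation).prod = A.valuation (xc S.C) ^ ((p - 1) / 2) := by
    rw [← hcard]
    refine (Finset.prod_eq_multiset_prod xs A.valuation).symm.trans (Finset.prod_eq_pow_card ?_)
    intro x hx
    obtain ⟨i, hi, rfl⟩ := Finset.mem_image.mp hx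
    obtain ⟨x, y, h, e, -, hv, -⟩ := key i (hI i hi).1
    rw [e]
    exact hv
  rw [h1]
  refine le_mul_of_one_le_right' ?_
  refine Multiset.one_le_prod_of_one_le fun v hv => ?_
  obtain ⟨r, hr, rfl⟩ := Multiset.mem_map.mp hv
  have hr' : r ∈ (V.preΨ' p).roots.filter fun r => r ∉ A :=
    hT ▸ Multiset.mem_add.mpr (Or.inr hr)
  exact ((one_lt_valuation_iff A).mpr (Multiset.mem_filter.mp hr').2).le

/-- **The abscissas of the translates of the point not reducing to zero.** -/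
theorem valuation_translate_gap (S : GoodLines W p A) {i : ZMod p} (hi : i ≠ 0) :
    A.valuation (p : Qbar) ≤
      A.valuation (xc (S.P + i.val • S.C) - xc S.P) ^ (p - 1) := by
  classical
  have hodd : Odd p := hp.out.odd_of_ne_two hp2
  have h2 : (2 : ZMod p) ≠ 0 := fun h => hp2 ((Nat.prime_dvd_prime_iff_eq hp.out Nat.prime_two).mp
    ((ZMod.natCast_eq_zero_iff 2 p).mp (by exact_mod_cast h)))
  set j : ZMod p := i / 2
  have hj : j ≠ 0 := div_ne_zero hi h2
  set Q := S.P + j.val • S.C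
  set D := j.val • S.C
  have hQD : Q + D = S.P + i.val • S.C := by
    rw [show Q + D = S.P + (j.val • S.C + j.val • S.C) from add_assoc _ _ _, ← add_nsmul]
    refine congrArg (S.P + ·) (nsmul_eq_nsmul_of_cast S.tor_C ?_)
    rw [Nat.cast_add, ZMod.natCast_zmod_val, ZMod.natCast_zmod_val, ← two_mul]
    exact mul_div_cancel₀ i h2
  have hQD' : Q - D = S.P := add_sub_cancel_right _ _
  have hQmem : Q ∉ kerRed W A := fun h => S.not_mem_P
    ((hQD' ▸ sub_mem h ((kerRed W A).nsmul_mem S.mem_C _) :))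
  have hQp : p • Q = 0 := by
    rw [nsmul_add, S.tor_P, zero_add, ← mul_nsmul', mul_comm, mul_nsmul', S.tor_C, nsmul_zero]
  have hD0 : D ≠ 0 := fun h => hj (by
    rw [← ZMod.natCast_zmod_val j, ← Nat.cast_zero]
    exact cast_eq_cast_of_nsmul_eq S.tor_C S.C_ne_zero (by
      rw [show j.val • S.C = D from rfl, h, zero_nsmul]))
  rcases eQ : Q with _ | ⟨xQ, yQ, hQ⟩
  · exact absurd (eQ ▸ zero_mem _) hQmem
  rcases eD : D with _ | ⟨xD, yD, hD⟩
  · exact absurd eD hD0
  have hxQ : xQ ∈ A := by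
    by_contra h
    exact hQmem (eQ ▸ (kerRed_some_iff hQ).mpr h)
  have hxD : xD ∉ A := (kerRed_some_iff hD).mp (eD ▸ (kerRed W A).nsmul_mem S.mem_C _)
  have hyQ : yQ ∈ A := y_mem_of_x_mem (gen_equation hQ.1) hxQ
  have hyD : A.valuation yD ^ 2 = A.valuation xD ^ 3 :=
    (val_y_of_x_not_mem (gen_equation hD.1) hxD).2
  obtain ⟨h1A, h3A⟩ := coeff_mem (W := W) (A := A)
  have hv2 : A.valuation (2 : Qbar) = 1 := by
    have := valuation_intCast_eq_one hp.out hA (n := 2) fun h => hp2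
      ((Nat.prime_dvd_prime_iff_eq hp.out Nat.prime_two).mp (Int.natCast_dvd_natCast.mp h))
    exact_mod_cast this
  have hm : (2 * yQ + ((W.map (Int.castRingHom ℚ))⁄Qbar).a₁ * xQ +
      ((W.map (Int.castRingHom ℚ))⁄Qbar).a₃) ∈ A :=
    add_mem (add_mem (mul_mem (by exact_mod_cast intCast_mem A 2) hyQ) (mul_mem h1A hxQ)) h3A
  have hQ2 : A.valuation (2 * yQ + ((W.map (Int.castRingHom ℚ))⁄Qbar).a₁ * xQ +
      ((W.map (Int.castRingHom ℚ))⁄Qbar).a₃) = 1 := by
    refine (residue_ne_zero_iff A ⟨_, hm⟩).mp fun h0 => ?_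
    have hneg : ((W.map (Int.castRingHom ℚ))⁄Qbar).toAffine.negY xQ yQ ∈ A := by
      show -yQ - ((W.map (Int.castRingHom ℚ))⁄Qbar).a₁ * xQ -
        ((W.map (Int.castRingHom ℚ))⁄Qbar).a₃ ∈ A
      exact sub_mem (sub_mem (neg_mem hyQ) (mul_mem h1A hxQ)) h3A
    have hd : (Affine.Point.some xQ yQ hQ : Pts W) - -Affine.Point.some xQ yQ hQ ∈ kerRed W A := by
      rw [Affine.Point.neg_some]
      refine sub_mem_kerRed hA hgood hxQ hyQ hxQ hneg rfl ?_
      rw [← sub_eq_zero, ← map_sub, ← h0]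
      congr 1
      refine Subtype.ext ?_
      show yQ - (-yQ - ((W.map (Int.castRingHom ℚ))⁄Qbar).a₁ * xQ -
        ((W.map (Int.castRingHom ℚ))⁄Qbar).a₃) = _
      ring
    rw [sub_neg_eq_add, ← eQ, ← two_nsmul] at hd
    exact absurd (cast_eq_zero_of_nsmul_mem hQp hQmem hd) (by exact_mod_cast h2)
  obtain ⟨x₁, y₁, h₁, x₂, y₂, h₂, e1, e2, hval⟩ :=
    valuation_X_add_sub_X_sub A h1A h3A hv2 hQ hD hxQ hxD hQ2 hyD
  have ex1 : xc (S.P + i.val • S.C) = x₁ := by
    rw [← hQD, eQ, eD]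
    exact congrArg xc e1
  have ex2 : xc S.P = x₂ := by
    rw [← hQD', eQ, eD]
    exact congrArg xc e2
  rw [ex1, ex2]
  -- the valuation of the multiple
  have hxC : A.valuation xD = A.valuation (xc S.C) := by
    rw [← valuation_xc_nsmul hA hgood S (i := j.val) (by rwa [ZMod.natCast_zmod_val]),
      show j.val • S.C = D from rfl, eD]
    rfl
  rw [hxC] at hval
  obtain ⟨m, hm'⟩ : ∃ m, p - 1 = 2 * m := by
    obtain ⟨k, hk⟩ := hodd
    exact ⟨k, by omega⟩
  have hb := valuation_xC_pow_le hA hgood hΔ0 hp2 S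
  rw [hm', Nat.mul_div_cancel_left m two_pos] at hb
  calc A.valuation (p : Qbar)
      = (A.valuation (x₁ - x₂) ^ 2 * A.valuation (xc S.C)) ^ m * A.valuation (p : Qbar) := by
        rw [hval, one_pow, one_mul]
    _ = A.valuation (x₁ - x₂) ^ (p - 1) *
          (A.valuation (xc S.C) ^ m * A.valuation (p : Qbar)) := by
        rw [mul_pow, ← pow_mul, ← hm', mul_assoc]
    _ ≤ A.valuation (x₁ - x₂) ^ (p - 1) := mul_le_of_le_one_right' hb

omit hA in
/-- **The torsion is fixed over `ℚ_p(ζ_p, μ_(p ^ 2 - 1), (1 + p) ^ (1 / p))`.** -/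
theorem fixes_torsion_good (Φ : ℂ ≃+* PadicAlgCl p)
    (hord : ∀ σ ∈ (CPlace.ofEquiv Φ).algVal.inertiaSubgroupIn ℚ,
      ∃ R : Pts W, R ≠ 0 ∧ p • R = 0 ∧ σ • R = R)
    (hsign : SignHyp W p (CPlace.ofEquiv Φ).algVal) {s : Gal' p} {g : GQ}
    (h : ∀ x, s (Φ (embC x)) = Φ (embC (g x))) (hs : FixK Φ 2 s) {R : Pts W} (hR : p • R = 0) :
    g • R = R := by
  classical
  set A := (CPlace.ofEquiv Φ).algVal
  set ι := embQ Φ
  set ζ := zetaP Φ
  have : NeZero p := ⟨hp.out.ne_zero⟩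
  have hA : A.LiesOverPrime p := (CPlace.ofEquiv Φ).algVal_liesOverPrime
  obtain ⟨S⟩ := nonempty_goodLines hA hgood hΔ0 hp2
    (exists_not_isE1_of_fixed hA hgood hΔ0 hp2 hord)
  have hcyc : ∀ {τ : Gal' p} {g : GQ}, (∀ x, τ (ι x) = ι (g x)) → ∀ a : ℕ, τ ζ = ζ ^ a →
      cyc p g = a := fun hg a ha => by
    obtain ⟨μ, hμ⟩ := HasEnoughRootsOfUnity.exists_primitiveRoot Qbar p
    exact cyc_eq_of_apply hμ (apply_root_of_restrict Φ hg ha hμ.pow_eq_one)
  -- a shift making the first norm one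
  obtain ⟨d, hd⟩ : ∃ d : ℕ, ‖ι (xc S.P + (d : Qbar))‖ = 1 := by
    have hle : ‖ι (xc S.P)‖ ≤ 1 := by
      have := (CPlace.mem_algVal (P := CPlace.ofEquiv Φ)).mp (xc_mem S.not_mem_P)
      rwa [CPlace.ofEquiv_abv] at this
    rcases lt_or_eq_of_le hle with hlt | heq
    · refine ⟨1, ?_⟩
      rw [Nat.cast_one, map_add, map_one, IsUltrametricDist.norm_add_eq_max_of_norm_ne_norm
        (by rw [norm_one]; exact hlt.ne), norm_one, max_eq_right hlt.le]
    · exact ⟨0, by rw [Nat.cast_zero, add_zero, heq]⟩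
  refine fixes_torsion_of_coord Φ hp2 S.tor_C S.C_ne_zero S.span
    (fun R => ι (xc R + (d : Qbar)))
    (fun τ _ g hg R => by rw [hg, map_add g, map_natCast g, xc_galois])
    (fun τ hτ g hg => ?_) (fun τ g hg a ha => ?_) (k := 0) (by rw [zpow_zero]; exact hd)
    (fun i hi => ?_) h hs hR
  · have hτ' := (IntermediateField.mem_fixingSubgroup_iff _ τ).mp hτ
    obtain ⟨X, Z, c, hC, hP, hXZ, -⟩ := S.act g (mem_decomposition_of_restrict Φ hg)
    have hη : ∀ η : Qbar, η ^ (p ^ 2 - 1) = 1 → g η = η := by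
      intro η hη
      refine ι.injective ?_
      obtain ⟨j, hj⟩ := CFT.Local.exists_pow_eq (botF p) 2 (ω := ι η) (by
        rw [unramOrder_bot, ← map_pow, hη, map_one])
      rw [← hg, ← hj, map_pow, hτ' _ (unramRoot_mem_lField 2)]
    have hZ := S.sign_eq_one hA hgood hp2 hsign (mem_decomposition_of_restrict Φ hg) hη hP
    rw [hZ, mul_one, hcyc hg 1 (by rw [pow_one]; exact hτ' _ (zeta_mem_lField 2))] at hXZ
    refine ⟨c, ?_, ?_⟩
    · rw [hC, nsmul_eq_nsmul_of_cast S.tor_C (b := 1) hXZ, one_nsmul]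
    · rw [hP, nsmul_eq_nsmul_of_cast S.tor_P (b := 1) (by rw [hZ, Nat.cast_one]), one_nsmul]
  · have hD := mem_decomposition_of_restrict Φ hg
    obtain ⟨X, Z, c, hC, hP, hXZ, -⟩ := S.act g hD
    have hsq := S.sign_sq hA hgood hp2 hsign hD hP
    rw [hcyc hg a ha] at hXZ
    exact ⟨X, Z, c, hC, hP, by linear_combination (Z : ZMod p) * hXZ - (X : ZMod p) * hsq,
      left_ne_zero_of_mul (hsq.trans_ne one_ne_zero)⟩
  · rw [hd, one_pow, mul_one, ← map_sub, add_sub_add_right_eq_sub, ← map_natCast ι p,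
      ← norm_pow, ← map_pow, ← val_le_iff_norm, map_pow]
    exact valuation_translate_gap hA hgood hΔ0 hp2 S hi

end FermatAgent.BAD.AtP

end
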