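import Fermat.Agent.Assembly.Frey
import Fermat.Agent.BAD.AtP.Forms.Final
import Fermat.Agent.BAD.AtP.Gal.Fixed
import Fermat.Agent.BAD.AtP.Gal.GoodTorsion

/-!
# A congruent eigenform of level `L p` against the triviality of eigenclasses

The residual Hecke action of an eigenform congruent to the curve: the eigenvalues of the Hecke
operators, and the local shape of the torsion at `p`.
-/

set_option autoImplicit false

open CongruenceSubgroup ModularFormClass WeierstrassCurve IsLocalRing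
open scoped MatrixGroups Matrix WeierstrassCurve.Affine

noncomputable section

namespace FermatAgent.BAD.TwoP

open FermatAgent.PSEMI

/-- An element fixing the torsion is in the kernel of the matrices of its extension of scalars. -/
theorem matRho_eq_one {W : WeierstrassCurve ℤ} (hΔ : W.Δ ≠ 0) {p : ℕ} [Fact p.Prime] {k : Type}
    [Field k] [CharP k p] (b : Module.Basis (Fin 2) k (Assembly.torRepK W hΔ p k).V)
    {g : AlgebraicClosure ℚ ≃ₐ[ℚ] AlgebraicClosure ℚ}
    (hg : Affine.Point.galoisRepModuleEnd (K := AlgebraicClosure ℚ) ℚ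
      (W.map (Int.castRingHom ℚ)).toAffine p g = 1) :
    matRho (Assembly.torRepK W hΔ p k) b g = 1 := by
  let : Algebra (ZMod p) k := (ZMod.castHom (dvd_refl p) k).toAlgebra
  have h : (Assembly.torRepK W hΔ p k).ρ g = 1 := by
    show ((Assembly.torRep W hΔ p).ρ g).baseChange k = 1
    rw [show (Assembly.torRep W hΔ p).ρ g = 1 from hg, LinearMap.baseChange_one]
  show LinearMap.toMatrixAlgEquiv b ((Assembly.torRepK W hΔ p k).ρ g) = 1
  rw [h, map_one]

end FermatAgent.BAD.TwoP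

namespace FermatAgent.BAD.AtP

open FermatAgent.PSEMI FermatAgent.BAD.TwoP
open FermatAgent.ES (GQ embC CPlace)
open FermatAgent.Period (parRank)
open Assembly (ZC)

section Trace

variable {p : ℕ} [hp : Fact p.Prime] {N : ℕ} [NeZero N]

/-- The trace of a Frobenius element is the Hecke operator. -/
theorem galTrace_frobenius {ℓ : ℕ} (hℓ : ℓ.Prime) (hℓN : ¬ ℓ ∣ N) (hℓp : ℓ ≠ p)
    {A : ValuationSubring (AlgebraicClosure ℚ)} (hA : A.LiesOverPrime ℓ) {σ : GQ}
    (hσ : A.IsFrobeniusAt σ ℓ) : ES.galTrace N p σ = matT p N ℓ hℓ := by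
  have hGG : ES.galMat p N σ * ES.galMat p N σ⁻¹ = 1 := by
    rw [← map_mul, mul_inv_cancel, map_one]
  have h := congrArg (fun Z => Z * ES.galMat p N σ⁻¹) (ES.galMat_congruence p hℓ hℓN hℓp hA hσ)
  simp only [add_mul, sub_mul, zero_mul, mul_assoc, hGG, mul_one] at h
  rw [ES.galTrace, ES.padCyclo_frobenius p hℓ hℓp hA hσ, map_natCast, matT]
  linear_combination (norm := abel) h

end Trace

/-- The local shape at `p` forced by an eigenform of level `L p`. -/
def LocalShape (W : WeierstrassCurve ℤ) (p : ℕ) [Fact p.Prime] : Prop :=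
  ∀ A : ValuationSubring (AlgebraicClosure ℚ), A.LiesOverPrime p →
    (∀ σ ∈ A.inertiaSubgroupIn ℚ, ∃ R : TateRep.Pts W, R ≠ 0 ∧ p • R = 0 ∧ σ • R = R) ∧
      SignHyp W p A

variable {W : WeierstrassCurve ℤ} {p : ℕ} [hp : Fact p.Prime]

/-- A vector fixed when the trace is the determinant plus one. -/
theorem exists_fixed_of_trace (hΔ : W.Δ ≠ 0) {g : GQ}
    (h : Affine.Point.galoisTrace ℚ (W.map (Int.castRingHom ℚ)).toAffine p g = cyc p g + 1) :
    ∃ R : TateRep.Pts W, R ≠ 0 ∧ p • R = 0 ∧ g • R = R := by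
  obtain ⟨t, ht⟩ := Lifting.exists_torsion_basis (p := p) hΔ
  have := Module.Finite.of_basis t
  set f := Affine.Point.galoisRepModuleEnd (K := AlgebraicClosure ℚ) ℚ
    (W.map (Int.castRingHom ℚ)).toAffine p g
  have hd : LinearMap.det f = cyc p g := by
    rw [← LinearMap.det_toMatrix t, ht, ← RingHom.mapMatrix_apply, ← RingHom.map_det,
      Lifting.det_tateMat]
    rfl
  have h0 : LinearMap.det (f - 1) = 0 := by
    rw [← LinearMap.det_toMatrix t, map_sub, LinearMap.toMatrix_one, Matrix.det_fin_two]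
    have htr : LinearMap.trace (ZMod p) _ f = cyc p g + 1 := h
    rw [LinearMap.trace_eq_matrix_trace _ t, Matrix.trace_fin_two] at htr
    rw [← LinearMap.det_toMatrix t, Matrix.det_fin_two] at hd
    simp [Matrix.sub_apply]
    linear_combination hd - htr
  obtain ⟨x, hx, hx0⟩ := Submodule.exists_mem_ne_zero_of_ne_bot (p := LinearMap.ker (f - 1))
    fun hbot => (LinearMap.det_eq_zero_iff_ker_ne_bot.mp h0) hbot
  refine ⟨(x : TateRep.Pts W), fun h1 => hx0 (Subtype.ext h1), ?_, ?_⟩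
  · rw [← natCast_zsmul]
    exact (Submodule.mem_torsionBy_iff _ _).1 x.2
  · rw [LinearMap.mem_ker, LinearMap.sub_apply, sub_eq_zero] at hx
    exact congrArg Subtype.val hx

/-- **No eigenform of level `L p` when the torsion is fixed over the coefficient field.** -/
theorem false_of_congr (hΔ : W.Δ ≠ 0) (hp2 : p ≠ 2) (hirr : W.ModRepIsIrreducible p)
    {L : ℕ} [NeZero L] [NeZero (L * p)] (hLp : L.Coprime p) (h3 : p = 3 → 2 ∣ L)
    {f : CuspForm (Gamma0 (L * p)) 2} {𝔪 : Ideal ZC}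
    (hcg : Assembly.Congr W p (L * p) f 𝔪) (hfp : qCoeff f p ^ 2 = 1)
    {E : ℕ} (hE : E ≠ 0) (hΔE : W.Δ.natAbs ∣ E) {b : ℕ → ℕ}
    (hb : ∀ ℓ, (b ℓ : ZMod p) = (W.apOfModel ℓ : ZMod p)) (hlow : NoLow p L E b)
    (hns : ∃ ℓ : ℕ, ℓ.Prime ∧ ¬ ℓ ∣ E * (L * p) ∧ (b ℓ : ZMod p) ≠ (ℓ : ZMod p) + 1)
    (hC : LocalShape W p → ∀ (Φ : ℂ ≃+* PadicAlgCl p) (g : GQ), FixCond p Φ g →
      Affine.Point.galoisRepModuleEnd (K := AlgebraicClosure ℚ) ℚ
        (W.map (Int.castRingHom ℚ)).toAffine p g = 1) : False := by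
  classical
  have := hcg.2.1
  let : Field (ZC ⧸ 𝔪) := Ideal.Quotient.field 𝔪
  have := Assembly.charP_quotient hp.out hcg.2.1 hcg.2.2.1
  let k := AlgebraicClosure (ZC ⧸ 𝔪)
  have : CharP k p := charP_of_injective_algebraMap' (ZC ⧸ 𝔪) p
  let ι : ZC →+* k := (algebraMap (ZC ⧸ 𝔪) k).comp (Ideal.Quotient.mk 𝔪)
  set c := ZMod.castHom (dvd_refl p) k
  obtain ⟨A, bb, a', hU, hAG, hcyc, hAM, ha', hφ⟩ := exists_torAct hΔ hp2 hirr dvd_rfl hcg ι
    (fun x hx => by rw [RingHom.comp_apply, Ideal.Quotient.eq_zero_iff_mem.mpr hx, map_zero])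
    hcg.1 fun _ _ _ => rfl
  obtain ⟨s, hs, hsa⟩ : ∃ s : ℤ, s * s = 1 ∧ (s : ZC) = a' := by
    rcases sq_eq_one_iff.1 hfp with h | h
    · exact ⟨1, by norm_num, Subtype.ext (by rw [Int.cast_one, ha', h]; rfl)⟩
    · exact ⟨-1, by norm_num, Subtype.ext (by rw [Int.cast_neg, Int.cast_one, ha', h]; rfl)⟩
  have h2R : (2 : ResidueField k) ≠ 0 := by
    rw [← map_ofNat (residue k) 2, Ne, map_eq_zero, ← Nat.cast_ofNat (R := k) (n := 2),
      CharP.cast_eq_zero_iff k p, Nat.prime_dvd_prime_iff_eq hp.out Nat.prime_two]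
    exact hp2
  have hpR : (p : ResidueField k) = 0 := by
    rw [← map_natCast (residue k), CharP.cast_eq_zero, map_zero]
  set θ := A.toHeckePart.θ
  have hpN : p ∣ L * p := dvd_mul_left p L
  have hp2N : ¬ p ^ 2 ∣ L * p := fun h => hp.out.coprime_iff_not_dvd.mp hLp.symm
    (Nat.dvd_of_mul_dvd_mul_right hp.out.pos (pow_two p ▸ h))
  have hθU : θ ⟨_, hU⟩ = θ ⟨_, A.scalar (s : ℤ_[p])⟩ := by
    show residue k (A.φ ⟨_, hU⟩) = residue k (A.φ ⟨_, A.scalar (s : ℤ_[p])⟩)
    rw [hφ, ← hsa, map_intCast,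
      show (⟨_, A.scalar (s : ℤ_[p])⟩ : A.R0) = ((s : ℤ) : A.R0) from
        Subtype.ext (by simp), map_intCast, map_intCast, map_intCast]
  have hθa : θ ⟨_, hU⟩ = residue k (c (s : ZMod p)) := by
    show residue k (A.φ ⟨_, hU⟩) = _
    rw [hφ, ← hsa, map_intCast ι, map_intCast c]
  have hθ0 : θ ⟨_, hU⟩ ≠ 0 := fun h => by
    have h1 : ((s * s : ℤ) : ResidueField k) = 0 := by
      rw [Int.cast_mul, ← map_intCast (residue k), ← map_intCast c, ← hθa, h, mul_zero]
    rw [hs, Int.cast_one] at h1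
    exact one_ne_zero h1
  have hτ : ∀ g, θ (A.τ g) = residue k (c (Affine.Point.galoisTrace ℚ
      (W.map (Int.castRingHom ℚ)).toAffine p g)) ∧
      θ (A.d g) = residue k (c (cyc p g)) := fun g => by
    obtain ⟨h1, h2⟩ := trace_det_matRho hΔ bb g
    refine ⟨(congrArg (residue k) (A.tr g)).trans ?_, (congrArg (residue k) (A.det g)).trans ?_⟩
    · rw [hAM, h1]
    · rw [hAM, h2]; rfl
  have hinj : Function.Injective fun x : ZMod p => residue k (c x) :=
    ((residue k).comp c).injective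
  -- the local shape at `p`
  have hshape : LocalShape W p := by
    intro P hP
    refine ⟨fun σ hσ => exists_fixed_of_trace hΔ (hinj ?_), (s : ZMod p), ?_, fun F hF => hinj ?_⟩
    · show residue k (c _) = residue k (c _)
      obtain ⟨h1, h2⟩ := trace_det_matRho hΔ bb σ
      have h := trace_inertia_of_unit hpN hp2N A hAG hcyc hU hθ0 h2R hP hσ
      rw [hAM, h1, h2] at h
      rw [h, map_add, map_one, map_add, map_one]; rfl
    · rw [← Int.cast_mul, hs, Int.cast_one]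
    · show residue k (c _) = residue k (c 0)
      obtain ⟨σ0, hσ0, hσw⟩ := RT.exists_inertia_cyclotomic hp.out hP (-1 : (ZMod p)ˣ)
      obtain ⟨hw1, hw0⟩ := wVal_cast_ne (K := ResidueField k) hpR h2R hσw
      have h := root_of_unit hpN hp2N A hAG hcyc hU hθ0 h2R hpR hP hσ0 hw1 hw0 hF
      rw [hθa, (hτ F).1, (hτ F).2] at h
      rw [map_zero, map_zero, map_add, map_sub, map_mul, map_mul, map_add, map_sub, map_mul,
        map_mul, ← h, sq]
  refine false_of_trivEigen (p := p) hpN hp2N A hAG hcyc hU h2R hpR (a := (s : ℤ_[p]))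
    (by exact_mod_cast hs) hθU (fun Φ g => FixCond p Φ g) (fun Φ g hg => ?_)
    fun Φ z heig hfix => ?_
  · rw [Fixed.mem_resKer, hAM, matRho_eq_one hΔ bb (hC hshape Φ g hg),
      Matrix.map_one _ (map_zero _) (map_one _)]
  refine trivEigen p L hp2 hLp h3 E hE b hlow hns Φ z (s : ℤ_[p]) (by exact_mod_cast hs)
    (heig ⟨_, hU⟩ _ hθU) (fun ℓ hℓ hℓE => ?_) hfix
  have hℓN : ¬ ℓ ∣ L * p := fun h => hℓE (h.mul_left E)
  have hℓp : ℓ ≠ p := fun h => hℓN (h ▸ hpN)
  have hgood : W.IsGoodPrimeFor ℓ := fun h =>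
    hℓE (((Int.natCast_dvd.1 h).trans hΔE).mul_right _)
  obtain ⟨P, hP⟩ := GaloisBasic.exists_liesOverPrime hℓ
  obtain ⟨F, hF⟩ := GaloisBasic.exists_isFrobeniusAt hℓ hP
  have hT : ((A.τ F : A.R0) : Matrix _ _ ℤ_[p]) = matT p (L * p) ℓ hℓ := by
    rw [A.τ_eq, hAG, hcyc, ← galTrace_frobenius hℓ hℓN hℓp hP hF]
    rfl
  rw [← hT]
  refine heig (A.τ F) _ ?_
  show θ (A.τ F) = residue k (A.φ ⟨_, A.scalar (b ℓ : ℤ_[p])⟩)
  rw [(hτ F).1, EC.galoisTrace_frobenius_eq_apOfModel W hℓ hgood hℓp hP hF, ← hb, map_natCast c,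
    show (⟨_, A.scalar (b ℓ : ℤ_[p])⟩ : A.R0) = ((b ℓ : ℕ) : A.R0) from Subtype.ext (by simp),
    map_natCast, map_natCast, map_natCast]

end FermatAgent.BAD.AtP

end
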