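import Fermat.Agent.BAD.AtP.Gal.Ordinary
import Fermat.Agent.BAD.TwoP.TorsionLines

/-!
# A basis of `E[p]` at a place of good ordinary reduction

One vector reduces to zero, the other does not; the decomposition group is triangular, with
diagonal of product the cyclotomic character.
-/

set_option autoImplicit false

noncomputable section

open WeierstrassCurve
open scoped WeierstrassCurve.Affine

namespace FermatAgent.BAD.AtP

open FermatAgent.ECLocal FermatAgent.TateRep FermatAgent.BAD.TwoP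

local notation "Qbar" => AlgebraicClosure ℚ
local notation "GQ" => AlgebraicClosure ℚ ≃ₐ[ℚ] AlgebraicClosure ℚ

variable {W : WeierstrassCurve ℤ} {p : ℕ} [hp : Fact p.Prime] {A : ValuationSubring Qbar}

/-- The points reducing to zero. -/
def kerRed (W : WeierstrassCurve ℤ) (A : ValuationSubring Qbar) : AddSubgroup (Pts W) where
  carrier := {R | IsE1 (toGen W A R)}
  add_mem' {a b} ha hb := show IsE1 (toGen W A (a + b)) by rw [map_add]; exact IsE1.add ha hb
  zero_mem' := show IsE1 (toGen W A 0) by rw [map_zero]; exact isE1_zero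
  neg_mem' {a} ha := show IsE1 (toGen W A (-a)) by rw [map_neg]; exact IsE1.neg ha

/-- A point is in the kernel of reduction if it reduces to zero on the model. -/
theorem mem_kerRed {R : Pts W} : R ∈ kerRed W A ↔ IsE1 (toGen W A R) := Iff.rfl

/-- An affine point reduces to zero exactly when its abscissa is not integral. -/
theorem kerRed_some_iff {x y : Qbar}
    (h : ((W.map (Int.castRingHom ℚ))⁄Qbar).toAffine.Nonsingular x y) :
    (Affine.Point.some x y h : Pts W) ∈ kerRed W A ↔ x ∉ A := by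
  rw [mem_kerRed]
  erw [toGen_some]
  exact isE1_some_iff _

/-- The kernel of reduction is stable under the decomposition group. -/
theorem galois_mem_kerRed {σ : GQ} (hσ : σ ∈ A.decompositionSubgroup ℚ) {R : Pts W}
    (hR : R ∈ kerRed W A) : σ • R ∈ kerRed W A := by
  rcases R with _ | ⟨x, y, h⟩
  · rw [← Affine.Point.zero_def, galois_smul_zero]; exact zero_mem _
  · change Affine.Point.some (σ x) (σ y) _ ∈ kerRed W A
    refine (kerRed_some_iff _).mpr fun hh => ?_
    refine (kerRed_some_iff _).mp hR ((A.valuation_le_one_iff _).mp ?_)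
    rw [← valuation_map_of_mem_decomposition A σ hσ]
    exact (A.valuation_le_one_iff _).mpr hh

/-- The cyclotomic character modulo `p`. -/
def cyc (p : ℕ) [Fact p.Prime] (σ : GQ) : ZMod p := PadicInt.toZMod (ES.padCyclo p σ)

/-- The cyclotomic character modulo `p` is multiplicative. -/
theorem cyc_mul (σ τ : GQ) : cyc p (σ * τ) = cyc p σ * cyc p τ := by
  rw [cyc, map_mul, map_mul]; rfl

theorem apply_root_eq_pow (σ : GQ) {μ : Qbar} (hμ : μ ^ p = 1) : σ μ = μ ^ (cyc p σ).val := by
  have h := ES.padCyclo_spec p σ 1 (t := μ) (by rwa [pow_one])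
  rw [h, pow_eq_pow_mod _ hμ, pow_eq_pow_mod (cyc p σ).val hμ]
  congr 1
  exact (ZMod.natCast_eq_natCast_iff' _ _ _).mp (by
    rw [toZModPow_one_val, ZMod.natCast_zmod_val]; rfl)

/-- The cyclotomic character modulo `p` has no zero value. -/
theorem cyc_ne_zero (σ : GQ) : cyc p σ ≠ 0 := by
  intro h
  have : NeZero p := ⟨hp.out.ne_zero⟩
  obtain ⟨μ, hμ⟩ := HasEnoughRootsOfUnity.exists_primitiveRoot Qbar p
  have h1 := apply_root_eq_pow σ hμ.pow_eq_one
  rw [h, ZMod.val_zero, pow_zero, ← map_one σ] at h1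
  exact hμ.ne_one hp.out.one_lt (σ.injective h1)

/-- The cyclotomic character modulo `p` is read on a primitive `p`-th root of unity. -/
theorem cyc_eq_of_apply {σ : GQ} {a : ℕ} {μ : Qbar} (hμ : IsPrimitiveRoot μ p)
    (h : σ μ = μ ^ a) : cyc p σ = a := by
  have : NeZero p := ⟨hp.out.ne_zero⟩
  rw [apply_root_eq_pow σ hμ.pow_eq_one, (hμ.isOfFinOrder hp.out.ne_zero).pow_eq_pow_iff_modEq,
    ← hμ.eq_orderOf] at h
  rw [← ZMod.natCast_zmod_val (cyc p σ)]
  exact (ZMod.natCast_eq_natCast_iff _ _ _).mpr h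

/-- A basis adapted to the reduction. -/
structure GoodLines (W : WeierstrassCurve ℤ) (p : ℕ) [Fact p.Prime]
    (A : ValuationSubring Qbar) where
  /-- A point not reducing to zero. -/
  P : Pts W
  /-- A point reducing to zero. -/
  C : Pts W
  tor_P : p • P = 0
  tor_C : p • C = 0
  C_ne_zero : C ≠ 0
  mem_C : C ∈ kerRed W A
  not_mem_P : P ∉ kerRed W A
  span : ∀ R : Pts W, p • R = 0 → ∃ u v : ℕ, R = u • P + v • C
  act : ∀ σ ∈ A.decompositionSubgroup ℚ, ∃ X Z c : ℕ, σ • C = X • C ∧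
    σ • P = Z • P + c • C ∧ ((X : ZMod p) * Z = cyc p σ) ∧
    Affine.Point.galoisTrace ℚ (W.map (Int.castRingHom ℚ)).toAffine p σ = X + Z

/-- A multiple reducing to zero of a point not reducing to zero is trivial. -/
theorem cast_eq_zero_of_nsmul_mem {R : Pts W} (hR : p • R = 0) (hR1 : R ∉ kerRed W A) {n : ℕ}
    (h : n • R ∈ kerRed W A) : (n : ZMod p) = 0 := by
  by_contra hn
  have hcop : (p : ℕ).Coprime n :=
    hp.out.coprime_iff_not_dvd.mpr fun hd => hn ((ZMod.natCast_eq_zero_iff _ _).mpr hd)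
  refine hR1 ?_
  have e : R = (((n : ZMod p)⁻¹).val * n) • R := by
    conv_lhs => rw [← one_nsmul R]
    refine nsmul_eq_nsmul_of_cast hR ?_
    rw [Nat.cast_one, Nat.cast_mul, ZMod.natCast_zmod_val, inv_mul_cancel₀ hn]
  rw [e, mul_nsmul']
  exact (kerRed W A).nsmul_mem h _

theorem cast_eq_zero_of_add {P C : Pts W} (hP : p • P = 0) (hP1 : P ∉ kerRed W A) (hC : C ≠ 0)
    (hCp : p • C = 0) (hC1 : C ∈ kerRed W A) {u v : ℕ} (h : u • P + v • C = 0) :
    (u : ZMod p) = 0 ∧ (v : ZMod p) = 0 := by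
  have hu : (u : ZMod p) = 0 := cast_eq_zero_of_nsmul_mem hP hP1 (by
    rw [eq_neg_of_add_eq_zero_left h]
    exact neg_mem ((kerRed W A).nsmul_mem hC1 v))
  refine ⟨hu, ?_⟩
  rw [nsmul_eq_nsmul_of_cast hP (b := 0) (by rw [hu, Nat.cast_zero]), zero_nsmul, zero_add,
    ← zero_nsmul C] at h
  rw [← Nat.cast_zero]
  exact cast_eq_cast_of_nsmul_eq hCp hC h

/-- The adapted basis exists as soon as some point does not reduce to zero. -/
theorem nonempty_goodLines (hA : A.LiesOverPrime p) (hgood : W.IsGoodPrimeFor p) (hΔ0 : W.Δ ≠ 0)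
    (hp2 : p ≠ 2) (hP : ∃ P : Pts W, p • P = 0 ∧ P ∉ kerRed W A) :
    Nonempty (GoodLines W p A) := by
  classical
  obtain ⟨P, hPp, hP1⟩ := hP
  obtain ⟨t, ht⟩ := Lifting.exists_torsion_basis (p := p) hΔ0
  let T := Submodule.torsionBy ℤ ((W.map (Int.castRingHom ℚ))⁄Qbar).Point (p : ℕ)
  let mk : ∀ R : Pts W, p • R = 0 → T := fun R hR => ⟨R, by
    rw [Submodule.mem_torsionBy_iff, natCast_zsmul]; exact hR⟩
  -- a point reducing to zero
  obtain ⟨C, hCp, hC0, hC1⟩ : ∃ C : Pts W, p • C = 0 ∧ C ≠ 0 ∧ C ∈ kerRed W A := by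
    by_contra hcon
    push Not at hcon
    obtain ⟨σ, hσ, hσw⟩ := RT.exists_inertia_cyclotomic hp.out hA (-1 : (ZMod p)ˣ)
    have hfix : Affine.Point.galoisRepModuleEnd (K := Qbar) ℚ
        (W.map (Int.castRingHom ℚ)).toAffine p σ = 1 := by
      refine LinearMap.ext fun x => Subtype.ext ?_
      have hx : p • (x : Pts W) = 0 := by
        rw [← natCast_zsmul]; exact (Submodule.mem_torsionBy_iff _ _).1 x.2
      have hm : σ • (x : Pts W) - x ∈ kerRed W A := PSEMI.inertia_sub_isE1 hA hgood hσ _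
      by_contra hne
      refine hcon _ ?_ (sub_ne_zero.mpr hne) hm
      show p • (σ • (x : Pts W) - (x : Pts W)) = 0
      rw [nsmul_sub, ← galois_smul_nsmul, hx, galois_smul_zero, sub_zero]
    have h1 := ht σ
    rw [hfix, LinearMap.toMatrix_one] at h1
    have h2 := congrArg Matrix.det h1
    rw [Matrix.det_one, ← RingHom.mapMatrix_apply, ← RingHom.map_det, Lifting.det_tateMat] at h2
    have : NeZero p := ⟨hp.out.ne_zero⟩
    obtain ⟨μ, hμ⟩ := HasEnoughRootsOfUnity.exists_primitiveRoot Qbar p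
    have h3 := cyc_eq_of_apply hμ (hσw μ hμ.pow_eq_one)
    rw [cyc, ← h2, ZMod.natCast_zmod_val, Units.val_neg, Units.val_one] at h3
    have h4 : ((2 : ℕ) : ZMod p) = 0 := by
      rw [Nat.cast_ofNat]; linear_combination h3
    exact hp2 ((Nat.prime_dvd_prime_iff_eq hp.out Nat.prime_two).mp
      ((ZMod.natCast_eq_zero_iff _ _).mp h4))
  -- the basis
  have := Module.Finite.of_basis t
  have hrank : Module.finrank (ZMod p) T = 2 := by
    rw [Module.finrank_eq_card_basis t, Fintype.card_fin]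
  have hcoe : ∀ (c : ZMod p) (x : T), (((c • x : T)) : Pts W) = c.val • (x : Pts W) := fun c x => by
    conv_lhs => rw [← ZMod.natCast_zmod_val c, Nat.cast_smul_eq_nsmul]
    rfl
  have hli : LinearIndependent (ZMod p) ![mk C hCp, mk P hPp] := by
    rw [LinearIndependent.pair_iff]
    intro a b hab
    have h := congrArg Subtype.val hab
    rw [Submodule.coe_add, hcoe, hcoe, add_comm] at h
    obtain ⟨h1, h2⟩ := cast_eq_zero_of_add hPp hP1 hC0 hCp hC1 h
    rw [ZMod.natCast_zmod_val] at h1 h2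
    exact ⟨h2, h1⟩
  let b := basisOfLinearIndependentOfCardEqFinrank hli (by rw [Fintype.card_fin, hrank])
  have hb : ∀ i, b i = ![mk C hCp, mk P hPp] i := fun i =>
    congrFun (coe_basisOfLinearIndependentOfCardEqFinrank hli (by rw [Fintype.card_fin, hrank])) i
  have hspan : ∀ R : Pts W, (hR : p • R = 0) →
      R = (b.repr (mk R hR) 1).val • P + (b.repr (mk R hR) 0).val • C := fun R hR => by
    have h := congrArg Subtype.val (b.sum_repr (mk R hR))
    rw [Fin.sum_univ_two, hb, hb, Submodule.coe_add, hcoe, hcoe, add_comm] at h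
    exact h.symm
  refine ⟨⟨P, C, hPp, hCp, hC0, hC1, hP1, fun R hR => ⟨_, _, hspan R hR⟩, fun σ hσ => ?_⟩⟩
  have hσC : p • (σ • C) = 0 := by rw [← galois_smul_nsmul, hCp, galois_smul_zero]
  have hσP : p • (σ • P) = 0 := by rw [← galois_smul_nsmul, hPp, galois_smul_zero]
  set X := b.repr (mk _ hσC) 0
  set Z := b.repr (mk _ hσP) 1
  set c := b.repr (mk _ hσP) 0
  have hY : b.repr (mk _ hσC) 1 = 0 := by
    rw [← ZMod.natCast_zmod_val (b.repr (mk _ hσC) 1)]
    refine cast_eq_zero_of_nsmul_mem hPp hP1 ?_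
    rw [eq_sub_of_add_eq (hspan _ hσC).symm]
    exact sub_mem (galois_mem_kerRed hσ hC1) ((kerRed W A).nsmul_mem hC1 _)
  refine ⟨X.val, Z.val, c.val, ?_, hspan _ hσP, ?_, ?_⟩
  · refine (hspan _ hσC).trans ?_
    rw [hY, ZMod.val_zero, zero_nsmul, zero_add]
  all_goals
    rw [ZMod.natCast_zmod_val, ZMod.natCast_zmod_val]
    set f := Affine.Point.galoisRepModuleEnd (K := Qbar) ℚ
      (W.map (Int.castRingHom ℚ)).toAffine p σ
    have hM : ∀ i j, LinearMap.toMatrix b b f i j = b.repr (f (b j)) i := fun i j => by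
      rw [LinearMap.toMatrix_apply]
    have hf0 : f (b 0) = mk _ hσC := by rw [hb]; rfl
    have hf1 : f (b 1) = mk _ hσP := by rw [hb]; rfl
  · have hd : LinearMap.det f = cyc p σ := by
      rw [← LinearMap.det_toMatrix t, ht, ← RingHom.mapMatrix_apply, ← RingHom.map_det,
        Lifting.det_tateMat]
      rfl
    rw [← hd, ← LinearMap.det_toMatrix b, Matrix.det_fin_two, hM, hM, hM, hM, hf0, hf1, hY,
      mul_zero, sub_zero]
  · rw [Affine.Point.galoisTrace_def]
    show LinearMap.trace (ZMod p) _ f = _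
    rw [LinearMap.trace_eq_matrix_trace _ b, Matrix.trace_fin_two, hM, hM, hf0, hf1]

end FermatAgent.BAD.AtP

end
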