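import Fermat.Agent.BAD.AtP.Gal.GoodLines
import Fermat.Agent.PSEMI.OrdinarySign

/-!
# The unramified sign at a place of good ordinary reduction

If `± 1` is an eigenvalue of every Frobenius element, the character on the quotient of `E[p]` by
the points reducing to zero has square one, and it is trivial on the automorphisms fixing the roots
of unity of order `p ^ 2 - 1`.
-/

set_option autoImplicit false

noncomputable section

open WeierstrassCurve IsLocalRing
open scoped WeierstrassCurve.Affine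

namespace FermatAgent.BAD.AtP

open FermatAgent.ECLocal FermatAgent.TateRep FermatAgent.BAD.TwoP

local notation "Qbar" => AlgebraicClosure ℚ
local notation "GQ" => AlgebraicClosure ℚ ≃ₐ[ℚ] AlgebraicClosure ℚ

variable {W : WeierstrassCurve ℤ} {p : ℕ} [hp : Fact p.Prime] {A : ValuationSubring Qbar}

/-- The automorphism of the residue field. -/
def resAut {σ : GQ} (hσ : σ ∈ A.decompositionSubgroup ℚ) : ResidueField A →+* ResidueField A :=
  MulSemiringAction.toRingHom (A.decompositionSubgroup ℚ) (ResidueField A) ⟨σ, hσ⟩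

/-- The residual automorphism on residues of integers. -/
theorem resAut_residue {σ : GQ} (hσ : σ ∈ A.decompositionSubgroup ℚ) {x : Qbar} (hx : x ∈ A) :
    resAut hσ (residue A ⟨x, hx⟩) = residue A ⟨σ x, GaloisBasic.apply_mem_of_decomposition hσ hx⟩ :=
  rfl

omit hp in
theorem resAut_frobenius {F : GQ} (hF : A.IsFrobeniusAt F p) (u : ResidueField A) :
    resAut hF.mem_decompositionSubgroup u = u ^ p := hF.smul_residue_eq u

/-- Automorphisms square to the identity on the field with `p ^ 2` elements. -/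
theorem apply_apply_eq_of_pow_eq {k : Type*} [Field k] [CharP k p] (f : k →+* k) {u : k}
    (hu : u ^ p ^ 2 = u) : f (f u) = u := by
  have hfix : ∀ z : k, z ^ p = z → f z = z := fun z hz => by
    have hle : (⊥ : Subfield k) ≤ RingHom.eqLocusField f (RingHom.id k) := bot_le
    exact hle ((Subfield.mem_bot_iff_pow_eq_self k p).mpr hz)
  have hs : f (u + u ^ p) = u + u ^ p := hfix _ (by
    rw [add_pow_char, ← pow_mul, ← pow_two, hu, add_comm])
  have hn : f (u * u ^ p) = u * u ^ p := hfix _ (by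
    rw [mul_pow, ← pow_mul, ← pow_two, hu, mul_comm])
  rw [map_add, map_pow] at hs
  rw [map_mul, map_pow] at hn
  have h : (f u - u) * (f u - u ^ p) = 0 := by linear_combination (f u) * hs - hn
  rcases mul_eq_zero.mp h with h | h <;> rw [sub_eq_zero] at h
  · rw [h, h]
  · rw [h, map_pow, h, ← pow_mul, ← pow_two, hu]

/-- Points with equal residual coordinates differ by the kernel of reduction. -/
theorem sub_mem_kerRed (hA : A.LiesOverPrime p) (hgood : W.IsGoodPrimeFor p) {x y x' y' : Qbar}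
    {h : ((W.map (Int.castRingHom ℚ))⁄Qbar).toAffine.Nonsingular x y}
    {h' : ((W.map (Int.castRingHom ℚ))⁄Qbar).toAffine.Nonsingular x' y'}
    (hx : x ∈ A) (hy : y ∈ A) (hx' : x' ∈ A) (hy' : y' ∈ A)
    (ex : residue A ⟨x, hx⟩ = residue A ⟨x', hx'⟩) (ey : residue A ⟨y, hy⟩ = residue A ⟨y', hy'⟩) :
    (Affine.Point.some x y h : Pts W) - Affine.Point.some x' y' h' ∈ kerRed W A := by
  classical
  have hE0 := isE0_of_residue_Δ_ne_zero (ECLocal.residue_modelAt_Δ hp.out hA hgood)
  rw [mem_kerRed, map_sub]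
  refine IsE1.sub_of_red_eq (hE0 _) (hE0 _) ?_
  erw [toGen_some, toGen_some, red_some_of_mem _ hx (hE0 _), red_some_of_mem _ hx' (hE0 _)]
  congr 1

/-- Residual coordinates of points differing by the kernel of reduction. -/
theorem residue_eq_of_sub_mem (hA : A.LiesOverPrime p) (hgood : W.IsGoodPrimeFor p)
    {x y x' y' : Qbar}
    {h : ((W.map (Int.castRingHom ℚ))⁄Qbar).toAffine.Nonsingular x y}
    {h' : ((W.map (Int.castRingHom ℚ))⁄Qbar).toAffine.Nonsingular x' y'}
    (hx : x ∈ A) (hy : y ∈ A) (hx' : x' ∈ A) (hy' : y' ∈ A)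
    (hd : (Affine.Point.some x y h : Pts W) - Affine.Point.some x' y' h' ∈ kerRed W A) :
    residue A ⟨x, hx⟩ = residue A ⟨x', hx'⟩ ∧ residue A ⟨y, hy⟩ = residue A ⟨y', hy'⟩ := by
  classical
  have hE0 := isE0_of_residue_Δ_ne_zero (ECLocal.residue_modelAt_Δ hp.out hA hgood)
  have key : ∀ P Q : (gen (modelAt W A)).toAffine.Point, IsE1 (P - Q) → red P = red Q :=
    fun P Q h => by
      have e := (IsE0.add (hE0 (P - Q)) (hE0 Q)).2
      rwa [h.red_eq_zero, zero_add, sub_add_cancel] at e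
  rw [mem_kerRed, map_sub] at hd
  erw [toGen_some, toGen_some] at hd
  have e := key _ _ hd
  rw [red_some_of_mem _ hx (hE0 _), red_some_of_mem _ hx' (hE0 _)] at e
  injection e with e1 e2
  exact ⟨e1, e2⟩

variable (S : GoodLines W p A)

/-- The image of `P` under the decomposition group off the kernel of reduction. -/
theorem GoodLines.cast_eq_of_sub_mem {σ : GQ} {Z c n : ℕ} (hP : σ • S.P = Z • S.P + c • S.C)
    (h : σ • S.P - n • S.P ∈ kerRed W A) : (Z : ZMod p) = n := by
  rw [hP, show Z • S.P + c • S.C - n • S.P = (Z • S.P - n • S.P) + c • S.C by abel,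
    (kerRed W A).add_mem_cancel_right ((kerRed W A).nsmul_mem S.mem_C c)] at h
  have hk : ((Z + (p - 1) * n : ℕ) : ZMod p) = 0 := by
    refine cast_eq_zero_of_nsmul_mem S.tor_P S.not_mem_P ?_
    convert h using 1
    rw [add_nsmul, sub_eq_add_neg (Z • S.P)]
    congr 1
    rw [eq_neg_iff_add_eq_zero, ← add_nsmul, ← Nat.succ_mul,
      show (p - 1).succ = p by have := hp.out.pos; omega, mul_comm, mul_nsmul', S.tor_P, nsmul_zero]
  push_cast [Nat.cast_sub hp.out.one_le, ZMod.natCast_self] at hk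
  linear_combination hk

/-- Inertia is trivial on the quotient. -/
theorem GoodLines.sign_inertia (hA : A.LiesOverPrime p) (hgood : W.IsGoodPrimeFor p) {σ : GQ}
    (hσ : σ ∈ A.inertiaSubgroupIn ℚ) {Z c : ℕ} (hP : σ • S.P = Z • S.P + c • S.C) :
    (Z : ZMod p) = 1 := by
  rw [← Nat.cast_one]
  refine S.cast_eq_of_sub_mem hP ?_
  rw [one_nsmul]
  exact PSEMI.inertia_sub_isE1 hA hgood hσ _

/-- The hypothesis on the sign. -/
def SignHyp (W : WeierstrassCurve ℤ) (p : ℕ) [Fact p.Prime] (A : ValuationSubring Qbar) : Prop :=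
  ∃ a : ZMod p, a * a = 1 ∧ ∀ F : GQ, A.IsFrobeniusAt F p →
    a * a - Affine.Point.galoisTrace ℚ (W.map (Int.castRingHom ℚ)).toAffine p F * a + cyc p F = 0

/-- **Frobenius squares to the identity on the quotient.** -/
theorem GoodLines.sign_frobenius (hA : A.LiesOverPrime p) (hgood : W.IsGoodPrimeFor p)
    (hp2 : p ≠ 2) (hsign : SignHyp W p A) {F : GQ} (hF : A.IsFrobeniusAt F p) {Z c : ℕ}
    (hP : F • S.P = Z • S.P + c • S.C) : (Z : ZMod p) * Z = 1 := by
  obtain ⟨a, haa, hroot⟩ := hsign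
  have h2 : (2 : ZMod p) ≠ 0 := fun h => hp2 ((Nat.prime_dvd_prime_iff_eq hp.out Nat.prime_two).mp
    ((ZMod.natCast_eq_zero_iff 2 p).mp (by exact_mod_cast h)))
  suffices (Z : ZMod p) = a by rw [this, haa]
  by_contra hne
  -- every Frobenius element has cyclotomic value `a Z`
  have key : ∀ σ ∈ A.inertiaSubgroupIn ℚ, cyc p F * cyc p σ = a * Z := by
    intro σ hσ
    have hFσ := PSEMI.isFrobeniusAt_mul_inertia hF hσ
    obtain ⟨X', Z', c', hC', hP', hXZ, htr⟩ := S.act _ hFσ.mem_decompositionSubgroup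
    have hZ : (Z' : ZMod p) = Z := by
      refine S.cast_eq_of_sub_mem hP' ?_
      rw [mul_smul, show F • (σ • S.P) - Z • S.P =
        F • (σ • S.P - S.P) + (F • S.P - Z • S.P) by
          rw [show F • (σ • S.P - S.P) = F • (σ • S.P) - F • S.P from
            map_sub (Affine.Point.map F.toAlgHom) _ _]
          abel]
      refine add_mem (galois_mem_kerRed hF.mem_decompositionSubgroup
        (PSEMI.inertia_sub_isE1 hA hgood hσ _)) ?_
      rw [hP, add_sub_cancel_left]
      exact (kerRed W A).nsmul_mem S.mem_C c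
    have h := hroot _ hFσ
    rw [htr, ← hXZ, hZ] at h
    have hX : ((a - X') * (a - Z) : ZMod p) = 0 := by linear_combination h
    rw [← cyc_mul, ← hXZ, hZ, ← sub_eq_zero.mp ((mul_eq_zero.mp hX).resolve_right
      (sub_ne_zero.mpr (Ne.symm hne)))]
  obtain ⟨σ, hσ, hσw⟩ := RT.exists_inertia_cyclotomic hp.out hA (-1 : (ZMod p)ˣ)
  have : NeZero p := ⟨hp.out.ne_zero⟩
  obtain ⟨μ, hμ⟩ := HasEnoughRootsOfUnity.exists_primitiveRoot Qbar p
  have hc := cyc_eq_of_apply hμ (hσw μ hμ.pow_eq_one)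
  rw [ZMod.natCast_zmod_val, Units.val_neg, Units.val_one] at hc
  have h1 := key 1 (one_mem _)
  have h1c : cyc p (1 : GQ) = 1 := by rw [cyc, map_one, map_one]
  rw [h1c, mul_one] at h1
  have h3 := key σ hσ
  rw [hc, ← h1] at h3
  exact cyc_ne_zero F (mul_left_cancel₀ h2 (by linear_combination -h3))

/-- The residual coordinates of the point lie in the field with `p ^ 2` elements. -/
theorem GoodLines.exists_coords (hA : A.LiesOverPrime p) (hgood : W.IsGoodPrimeFor p)
    (hp2 : p ≠ 2) (hsign : SignHyp W p A) :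
    ∃ (x y : Qbar) (h : ((W.map (Int.castRingHom ℚ))⁄Qbar).toAffine.Nonsingular x y)
      (hx : x ∈ A) (hy : y ∈ A), S.P = .some x y h ∧
      residue A ⟨x, hx⟩ ^ p ^ 2 = residue A ⟨x, hx⟩ ∧
      residue A ⟨y, hy⟩ ^ p ^ 2 = residue A ⟨y, hy⟩ := by
  classical
  obtain ⟨x, y, h, e⟩ : ∃ x y h, S.P = Affine.Point.some x y h := by
    rcases hP : S.P with _ | ⟨x, y, h⟩
    · exact absurd (hP ▸ zero_mem _) S.not_mem_P
    · exact ⟨x, y, h, rfl⟩
  have hx : x ∈ A := by
    by_contra hx
    exact S.not_mem_P (e ▸ (kerRed_some_iff h).mpr hx)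
  have hy : y ∈ A :=
    y_mem_of_x_mem (gen_modelAt W A ▸ h : (gen (modelAt W A)).toAffine.Nonsingular x y).1 hx
  obtain ⟨F, hF⟩ := GaloisBasic.exists_isFrobeniusAt hp.out hA
  have hD := hF.mem_decompositionSubgroup
  obtain ⟨X, Z, c, hC, hP, -, -⟩ := S.act _ hD
  have hZ := S.sign_frobenius hA hgood hp2 hsign hF hP
  have hk : F • (F • S.P) - S.P ∈ kerRed W A := by
    have h2 : F • (F • S.P) = (Z * Z) • S.P + (Z • (c • S.C) + c • (F • S.C)) := by
      rw [hP, galois_smul_add, galois_smul_nsmul, galois_smul_nsmul, hP, nsmul_add, mul_nsmul',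
        add_assoc]
    rw [h2, nsmul_eq_nsmul_of_cast S.tor_P (b := 1) (by rw [Nat.cast_mul, hZ, Nat.cast_one]),
      one_nsmul, add_sub_cancel_left]
    exact add_mem ((kerRed W A).nsmul_mem ((kerRed W A).nsmul_mem S.mem_C c) _)
      ((kerRed W A).nsmul_mem (galois_mem_kerRed hD S.mem_C) c)
  rw [e] at hk
  change Affine.Point.some (F (F x)) (F (F y)) _ - _ ∈ kerRed W A at hk
  obtain ⟨ex, ey⟩ := residue_eq_of_sub_mem hA hgood
    (GaloisBasic.apply_mem_of_decomposition hD (GaloisBasic.apply_mem_of_decomposition hD hx))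
    (GaloisBasic.apply_mem_of_decomposition hD (GaloisBasic.apply_mem_of_decomposition hD hy))
    hx hy hk
  refine ⟨x, y, h, hx, hy, e, ?_, ?_⟩
  · rw [pow_two p, pow_mul, ← resAut_frobenius hF (residue A ⟨x, hx⟩), resAut_residue,
      ← resAut_frobenius hF, resAut_residue]
    exact ex
  · rw [pow_two p, pow_mul, ← resAut_frobenius hF (residue A ⟨y, hy⟩), resAut_residue,
      ← resAut_frobenius hF, resAut_residue]
    exact ey

/-- **The quotient character has square one.** -/
theorem GoodLines.sign_sq (hA : A.LiesOverPrime p) (hgood : W.IsGoodPrimeFor p)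
    (hp2 : p ≠ 2) (hsign : SignHyp W p A) {σ : GQ} (hσ : σ ∈ A.decompositionSubgroup ℚ)
    {Z c : ℕ} (hP : σ • S.P = Z • S.P + c • S.C) : (Z : ZMod p) * Z = 1 := by
  have := residueChar A hA
  obtain ⟨x, y, h, hx, hy, e, hx2, hy2⟩ := S.exists_coords hA hgood hp2 hsign
  obtain ⟨X', Z', c', hC', hP', -, -⟩ := S.act _ (mul_mem hσ hσ)
  have h1 : (Z' : ZMod p) = 1 := by
    rw [← Nat.cast_one]
    refine S.cast_eq_of_sub_mem hP' ?_
    rw [one_nsmul, mul_smul, e]
    refine sub_mem_kerRed hA hgood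
      (GaloisBasic.apply_mem_of_decomposition hσ (GaloisBasic.apply_mem_of_decomposition hσ hx))
      (GaloisBasic.apply_mem_of_decomposition hσ (GaloisBasic.apply_mem_of_decomposition hσ hy))
      hx hy ?_ ?_
    · exact apply_apply_eq_of_pow_eq (resAut hσ) hx2
    · exact apply_apply_eq_of_pow_eq (resAut hσ) hy2
  have h2 : (Z' : ZMod p) = (Z * Z : ℕ) := by
    refine S.cast_eq_of_sub_mem hP' ?_
    obtain ⟨X, -, -, hC, -, -, -⟩ := S.act _ hσ
    rw [mul_smul, hP, galois_smul_add, galois_smul_nsmul, galois_smul_nsmul, hP, hC, nsmul_add,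
      ← mul_nsmul', add_assoc, add_sub_cancel_left]
    exact add_mem ((kerRed W A).nsmul_mem ((kerRed W A).nsmul_mem S.mem_C c) _)
      ((kerRed W A).nsmul_mem ((kerRed W A).nsmul_mem S.mem_C X) c)
  rw [h1, Nat.cast_mul] at h2
  exact h2.symm

/-- **The quotient character is trivial on elements fixing `μ_(p ^ 2 - 1)`.** -/
theorem GoodLines.sign_eq_one (hA : A.LiesOverPrime p) (hgood : W.IsGoodPrimeFor p)
    (hp2 : p ≠ 2) (hsign : SignHyp W p A) {σ : GQ} (hσ : σ ∈ A.decompositionSubgroup ℚ)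
    (hfix : ∀ η : Qbar, η ^ (p ^ 2 - 1) = 1 → σ η = η)
    {Z c : ℕ} (hP : σ • S.P = Z • S.P + c • S.C) : (Z : ZMod p) = 1 := by
  classical
  have := residueChar A hA
  obtain ⟨x, y, h, hx, hy, e, hx2, hy2⟩ := S.exists_coords hA hgood hp2 hsign
  have hn : p ^ 2 - 1 ≠ 0 := by
    have h4 : 4 ≤ p ^ 2 := Nat.pow_le_pow_left hp.out.two_le 2
    omega
  have : NeZero (p ^ 2 - 1) := ⟨hn⟩
  obtain ⟨η, hη⟩ := HasEnoughRootsOfUnity.exists_primitiveRoot Qbar (p ^ 2 - 1)
  have hηA : η ∈ A := A.mem_of_valuation_le_one _ ((pow_eq_one_iff_left hn).mp (by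
    rw [← map_pow, hη.pow_eq_one, map_one])).le
  have hprim : IsPrimitiveRoot (residue A ⟨η, hηA⟩) (p ^ 2 - 1) := by
    refine ⟨by rw [← map_pow, show (⟨η, hηA⟩ : A) ^ (p ^ 2 - 1) = 1 from
      Subtype.ext hη.pow_eq_one, map_one], fun l hl => ?_⟩
    refine hη.dvd_of_pow_eq_one l ?_
    have h1 := eq_one_of_residue_eq_one (ξ := (⟨η, hηA⟩ : A) ^ l) hA (n := p ^ 2 - 1) ?_
      (by rw [← pow_mul, mul_comm, pow_mul, show (⟨η, hηA⟩ : A) ^ (p ^ 2 - 1) = 1 from
        Subtype.ext hη.pow_eq_one, one_pow]) (by rw [map_pow]; exact hl)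
    · exact congrArg Subtype.val h1
    · intro hd
      have h2 := Nat.dvd_sub (dvd_pow_self p two_ne_zero) hd
      rw [Nat.sub_sub_self (Nat.one_le_pow 2 p hp.out.pos)] at h2
      exact hp.out.not_dvd_one h2
  have key : ∀ u : ResidueField A, u ^ p ^ 2 = u → resAut hσ u = u := by
    intro u hu
    rcases eq_or_ne u 0 with rfl | hu0
    · exact map_zero _
    have h1 : u ^ (p ^ 2 - 1) = 1 := by
      refine mul_left_cancel₀ hu0 ?_
      rw [← pow_succ', Nat.sub_add_cancel (Nat.one_le_pow 2 p hp.out.pos), mul_one, hu]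
    obtain ⟨i, -, rfl⟩ := hprim.eq_pow_of_pow_eq_one h1
    rw [map_pow, resAut_residue]
    congr 2
    exact Subtype.ext (hfix η hη.pow_eq_one)
  rw [← Nat.cast_one]
  refine S.cast_eq_of_sub_mem hP ?_
  rw [one_nsmul, e]
  refine sub_mem_kerRed hA hgood (GaloisBasic.apply_mem_of_decomposition hσ hx)
    (GaloisBasic.apply_mem_of_decomposition hσ hy) hx hy ?_ ?_
  · exact key _ hx2
  · exact key _ hy2

end FermatAgent.BAD.AtP

end
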