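import Fermat.Prelude.Def_WeierstrassCurve_PeuRamifiee
import Fermat.Agent.BAD.AtP.Gal.GoodTorsion
import Fermat.Agent.BAD.AtP.Gal.Attach

/-!
# The torsion is fixed over the coefficient field

Either the reduction at `p` is multiplicative with `p` dividing the valuation of the discriminant,
or it is good and the local shape at `p` is ordinary.
-/

set_option autoImplicit false

noncomputable section

open WeierstrassCurve
open scoped WeierstrassCurve.Affine

namespace FermatAgent.BAD.AtP

open FermatAgent.BAD.TwoP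
open FermatAgent.ES (GQ embC CPlace)

variable {W : WeierstrassCurve ℤ} {p : ℕ} [hp : Fact p.Prime]

omit hp in
/-- The peu ramifié hypothesis on the model. -/
theorem dvd_padicValInt_of_isPeuRamifieeAt
    (hfin : (W.map (Int.castRingHom ℚ)).IsPeuRamifieeAt p p) :
    p ∣ padicValInt p W.Δ := by
  unfold IsPeuRamifieeAt at hfin
  rw [map_Δ, eq_intCast (Int.castRingHom ℚ), padicValRat.of_int] at hfin
  exact_mod_cast hfin

/-- **The torsion is fixed over the coefficient field.** -/
theorem galoisRepModuleEnd_eq_one (hΔ : W.Δ ≠ 0) (hp2 : p ≠ 2)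
    (hsemi : (p : ℤ) ∣ W.Δ → ¬ (p : ℤ) ∣ W.c₄ ∧ p ∣ padicValInt p W.Δ)
    (hshape : LocalShape W p) (Φ : ℂ ≃+* PadicAlgCl p) (g : GQ) (hg : FixCond p Φ g) :
    Affine.Point.galoisRepModuleEnd (K := AlgebraicClosure ℚ) ℚ
      (W.map (Int.castRingHom ℚ)).toAffine p g = 1 := by
  obtain ⟨s, h, hs⟩ := hg
  refine LinearMap.ext fun R => Subtype.ext ?_
  have hR : p • (R : TateRep.Pts W) = 0 := by
    rw [← natCast_zsmul]
    exact (Submodule.mem_torsionBy_iff _ _).1 R.2
  by_cases hd : (p : ℤ) ∣ W.Δ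
  · obtain ⟨hc4, hpeu⟩ := hsemi hd
    exact fixes_torsion Φ (hp.out.odd_of_ne_two hp2) hΔ hd hc4 hpeu h hs hR
  · obtain ⟨hord, hsign⟩ := hshape _ (CPlace.ofEquiv Φ).algVal_liesOverPrime
    exact fixes_torsion_good hd hΔ hp2 Φ hord hsign h hs hR

end FermatAgent.BAD.AtP

end
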