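import Fermat.Agent.PSEMI.EC.OrdinaryInertia
import Fermat.Agent.Mazur.Val

/-!
# Inertia fixing vectors of `E[p]` forces ordinary reduction

At a place of good reduction over `p` where every inertia element fixes a nonzero point of order
`p`, not all points of order `p` reduce to zero.
-/

set_option autoImplicit false

noncomputable section

open WeierstrassCurve
open scoped WeierstrassCurve.Affine

namespace FermatAgent.BAD.AtP

open FermatAgent.ECLocal FermatAgent.TateRep

local notation "Qbar" => AlgebraicClosure ℚ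

variable {W : WeierstrassCurve ℤ} {p : ℕ} [hp : Fact p.Prime] {A : ValuationSubring Qbar}

/-- A root of unity of order prime to `p` congruent to one is one. -/
theorem eq_one_of_residue_eq_one (hA : A.LiesOverPrime p) {n : ℕ} (hn : ¬ p ∣ n) {ξ : A}
    (hξ : ξ ^ n = 1) (h : IsLocalRing.residue A ξ = 1) : ξ = 1 := by
  have h1 : (∑ i ∈ Finset.range n, ξ ^ i) * (ξ - 1) = 0 := by
    rw [geom_sum_mul, hξ, sub_self]
  refine sub_eq_zero.mp ((mul_eq_zero.mp h1).resolve_left fun h0 => ?_)
  have h2 := congrArg (IsLocalRing.residue A) h0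
  rw [map_sum, map_zero] at h2
  simp only [map_pow, h, one_pow, Finset.sum_const, Finset.card_range, nsmul_one] at h2
  exact natCast_residue_ne_zero hp.out hA hn h2

/-- **Inertia with fixed vectors forces ordinary reduction.** -/
theorem exists_not_isE1_of_fixed (hA : A.LiesOverPrime p) (hgood : W.IsGoodPrimeFor p)
    (hΔ0 : W.Δ ≠ 0) (hp2 : p ≠ 2)
    (hfix : ∀ σ ∈ A.inertiaSubgroupIn ℚ, ∃ R : Pts W, R ≠ 0 ∧ p • R = 0 ∧ σ • R = R) :
    ∃ P : Pts W, p • P = 0 ∧ ¬ IsE1 (toGen W A P) := by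
  classical
  by_contra hcon
  simp only [not_exists, not_and, not_not] at hcon
  have hodd : Odd p := hp.out.odd_of_ne_two hp2
  have h2 : IsLocalRing.residue A (2 : A) ≠ 0 := by
    rw [map_ofNat]
    exact_mod_cast natCast_residue_ne_zero hp.out hA (n := 2) fun h =>
      hp2 ((Nat.prime_dvd_prime_iff_eq hp.out Nat.prime_two).mp h)
  have hΔr := ECLocal.residue_modelAt_Δ hp.out hA hgood
  have hx₁ := exists_simple_root_good _ h2 hΔr
  set D := (p ^ 2 - 1) / 2 with hD
  have hD4 : 2 ≤ D ∧ ¬ p ∣ D := by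
    obtain ⟨j, hj⟩ := hodd
    have hj1 : 1 ≤ j := by have := hp.out.two_le; omega
    have e : D = 2 * (j * j) + 2 * j := by
      have e1 : p ^ 2 - 1 = (2 * (j * j) + 2 * j) * 2 := by
        have e0 : p ^ 2 = (2 * (j * j) + 2 * j) * 2 + 1 := by rw [hj]; ring
        omega
      rw [hD, e1, Nat.mul_div_cancel _ two_pos]
    refine ⟨by omega, fun h => ?_⟩
    have h4 : p ∣ (p ^ 2 - 1) := h.trans (Nat.div_dvd_of_dvd (by
      rw [show p ^ 2 - 1 = (2 * (j * j) + 2 * j) * 2 by
        have e0 : p ^ 2 = (2 * (j * j) + 2 * j) * 2 + 1 := by rw [hj]; ring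
        omega]
      exact dvd_mul_left 2 _))
    have h5 : p ∣ p ^ 2 := dvd_pow_self p two_ne_zero
    have h6 : p ∣ 1 := by
      have := Nat.dvd_sub h5 h4
      rwa [Nat.sub_sub_self (Nat.one_le_pow 2 p hp.out.pos)] at this
    exact hp.out.not_dvd_one h6
  obtain ⟨π, hπ⟩ := IsAlgClosed.exists_pow_nat_eq (p : Qbar) (show 0 < D by omega)
  have hπ0 : π ≠ 0 := fun h => hp.out.ne_zero (by
    rw [h, zero_pow (by omega : D ≠ 0)] at hπ
    exact_mod_cast hπ.symm)
  have hvp : A.valuation (p : Qbar) < 1 := valuation_natCast_lt_one hA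
  have hvp0 : A.valuation (p : Qbar) ≠ 0 :=
    (Valuation.ne_zero_iff _).mpr (Nat.cast_ne_zero.mpr hp.out.ne_zero)
  -- some inertia element moves the root
  obtain ⟨σ, hσ, hσπ⟩ : ∃ σ ∈ A.inertiaSubgroupIn ℚ, σ π ≠ π := by
    by_contra hall
    push Not at hall
    obtain ⟨k, hk⟩ := Mazur.exists_zpow_valuation_eq hp.out hA hπ0 hall
    have h1 : A.valuation (p : Qbar) ^ (k * D) = A.valuation (p : Qbar) ^ (1 : ℤ) := by
      rw [zpow_mul, ← hk, zpow_natCast, ← map_pow, hπ, zpow_one]
    have h3 := zpow_right_injective₀ (zero_lt_iff.mpr hvp0) hvp.ne h1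
    have h4 : (D : ℤ) ∣ 1 := ⟨k, by rw [mul_comm]; exact h3.symm⟩
    have := Nat.le_of_dvd one_pos (Int.natCast_dvd_natCast.mp (by simpa using h4))
    omega
  obtain ⟨R, hR0, hRp, hσR⟩ := hfix σ hσ
  rcases R with _ | ⟨x, y, hxy⟩
  · exact hR0 rfl
  obtain ⟨-, hval⟩ := valuation_x_of_all_isE1 hp.out hodd hA hΔ0 hx₁ hcon hxy hRp
  have hx : σ x = x := by
    change Affine.Point.some (σ x) (σ y) _ = Affine.Point.some x y hxy at hσR
    injection hσR with h1 _
  have hw : A.valuation (x * π) = 1 := by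
    refine (pow_eq_one_iff_left (by omega : D ≠ 0)).mp ?_
    rw [map_mul, mul_pow, ← map_pow _ π, hπ]
    exact hval
  have hI := actsInertially_of_mem A σ hσ
  have hlt := hI.val_map_sub (x * π) (A.mem_of_valuation_le_one _ hw.le)
  rw [RingHom.coe_coe, map_mul σ, hx, ← mul_sub] at hlt
  have hq : A.valuation (σ π / π - 1) < 1 := by
    rw [show σ π / π - 1 = x * (σ π - π) / (x * π) by
      have hx0 : x ≠ 0 := fun h0 => by rw [h0, zero_mul, map_zero] at hw; exact zero_ne_one hw
      field_simp, map_div₀, hw, div_one]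
    exact hlt
  have hmem : σ π / π ∈ A := by
    refine A.mem_of_valuation_le_one _ (le_of_eq ?_)
    rw [map_div₀, valuation_map_of_mem_decomposition A σ
      (GaloisBasic.inertiaSubgroupIn_le_decompositionSubgroup A hσ),
      div_self ((Valuation.ne_zero_iff _).mpr hπ0)]
  have hξ : (⟨σ π / π, hmem⟩ : A) ^ D = 1 := Subtype.ext (by
    rw [SubmonoidClass.coe_pow, div_pow, ← map_pow, hπ, map_natCast,
      div_self (Nat.cast_ne_zero.mpr hp.out.ne_zero)]
    rfl)
  have h1 := eq_one_of_residue_eq_one hA hD4.2 hξ (by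
    rw [← map_one (IsLocalRing.residue A), residue_eq_residue_iff]
    exact hq)
  exact hσπ ((div_eq_one_iff_eq hπ0).mp (congrArg Subtype.val h1))

end FermatAgent.BAD.AtP

end
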